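import Fermat.Agent.LR.Ihara.Kernel
import Fermat.Agent.BAD.Ihara.Module

/-!
# Ihara's lemma for the Hecke modules, without Galois representations

The prime `q` of the degeneracy maps may equal the residue characteristic.
-/

set_option autoImplicit false

noncomputable section

open CongruenceSubgroup MvPolynomial
open scoped MatrixGroups
open ModularCurve.Period

namespace FermatAgent.LR

open FermatAgent.HM FermatAgent.BAD.Ihara

variable {k : Type} [Field k] {L : ℕ} {D : ALData} {hqL : D.q.Coprime L} {ι : Type}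
  {pr : ι → HPrime L}

/-- A pair in the kernel of the two degeneracy maps `L → L q` satisfies, as a pair of homomorphisms
of `Γ₀(L)`, the relation `u γ + v γ' = 0` for `γ ∈ Γ₀(L q)` and `γ' = diag(q,1) γ diag(q,1)⁻¹`. -/
theorem pairRel_of_pairDeg {u v : Low k D hqL pr} (hwK : pairDeg D hqL pr (u, v) = 0) :
    PairRel D.q (trivHom k D.L (D.extPr hqL pr) k u) (trivHom k D.L (D.extPr hqL pr) k v) :=
  fun γ γ' hd hγ => by
    have hcop : IsCoprime (D.L : ℤ) (D.q : ℤ) :=
      Nat.isCoprime_iff_coprime.mpr (D.prime.coprime_iff_not_dvd.mpr D.not_dvd).symm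
    have hN : (γ : SL(2, ℤ)) ∈ Gamma0 D.N := by
      rw [Gamma0_mem, ZMod.intCast_zmod_eq_zero_iff_dvd,
        show (D.N : ℤ) = D.L * D.q by simp [ALData.N]]
      exact hcop.mul_dvd ((ZMod.intCast_zmod_eq_zero_iff_dvd _ _).mp (Gamma0_mem.mp γ.2)) hd
    have h2 := congrArg (fun w => trivHom k D.N (D.extPr hqL pr) k w (Additive.ofMul ⟨_, hN⟩))
      (show pairDeg D hqL pr (u, v) = 0 from hwK)
    simp only [pairDeg, map_add, map_zero, AddMonoidHom.add_apply, AddMonoidHom.zero_apply] at h2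
    rw [trivHom_resMod, trivHom_degMod v ⟨_, hN⟩ γ' hγ] at h2
    exact h2

/-- An eigenclass of the Hecke variable at a prime not dividing `L` gives an eigenvector of the
transfer operator `T_ℓ` on homomorphisms of `Γ₀(L)`. -/
theorem op_trivHom_of_eigen {i : ι} [Fact (pr i).1.1.Prime] (hi : ¬ ((pr i).1.1 : ℕ) ∣ D.L)
    {u : Low k D hqL pr} {a : k}
    (h : (MvPolynomial.X (some i) : MvPolynomial (Option ι) k) • u = a • u) :
    (Period.transferDataT hi).op k (trivHom k D.L (D.extPr hqL pr) k u) =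
      a • trivHom k D.L (D.extPr hqL pr) k u := by
  have ht := trivHom_X (R := k) (M := D.L) (X := k) (D.extPr hqL pr) (some i) u
  rw [h, _root_.map_smul] at ht
  refine Eq.trans ?_ ((homOp_heckeCorr_eq (S := k) (pr i).2 hi _).symm.trans ht.symm)
  unfold Period.heckeOp
  rw [dif_neg hi]

/-- **Ihara's lemma: the kernel of the two degeneracy maps is killed outside the eigensystem.**

The eigensystem `c` may be neither `ℓ + 1` at some `ℓ ≡ 1 mod L` (this gives a parabolic eigenpair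
in the kernel) nor `± (ℓ + 1)` at some `ℓ` modulo which `q` has large order. The proof: the first
entry of such a pair extends to a homomorphism on the level `L` subgroup of `SL₂(ℤ[1/q])` and is
killed by `T_ℓ ² - (ℓ + 1) ²`, so vanishes, and then the second does. -/
theorem pairDeg_killed [Finite k] (hne : ∀ i, ((pr i).1.1 : ℕ) ≠ D.q) (c : ι → k)
    (i₀ : ι) (hi₀ : (((pr i₀).1.1 : ℕ) : ZMod D.L) = 1) (hne₀ : c i₀ ≠ ((pr i₀).1.1 : ℕ) + 1)
    (i₁ : ι) (hi₁ : ¬ ((pr i₁).1.1 : ℕ) ∣ D.L)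
    (hord : (D.q : ZMod (pr i₁).1.1) ^ (4 * D.L ^ 2) ≠ 1)
    (hne₁ : c i₁ ^ 2 ≠ (((pr i₁).1.1 : ℕ) + 1 : k) ^ 2)
    (z : Low k D hqL pr × Low k D hqL pr) (h : pairDeg D hqL pr z = 0) :
    ∃ s : MvPolynomial ι k, s ∉ eigIdeal c ∧ rename some s • z = 0 := by
  by_contra hall
  push Not at hall
  obtain ⟨u, v, hwK, hw0, heig, hu, hv⟩ := exists_parabolic_eigen_pair c hne i₀ hi₀ hne₀ h hall
  have : Fact (pr i₁).1.1.Prime := ⟨(pr i₁).1.2⟩
  obtain ⟨hu0, hv0⟩ := pair_eq_zero (Nat.pos_of_ne_zero D.L_ne_zero) D.prime D.not_dvd hi₁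
    (hne i₁) hord hu hv (pairRel_of_pairDeg hwK) (op_trivHom_of_eigen hi₁ (heig i₁).1) hne₁
  exact hw0 (Prod.ext ((trivHom k D.L (D.extPr hqL pr) k).map_eq_zero_iff.mp hu0)
    ((trivHom k D.L (D.extPr hqL pr) k).map_eq_zero_iff.mp hv0))

end FermatAgent.LR

end
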