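import Mathlib
import Fermat.Agent.Assembly.IndexTwo.Algebra
import Fermat.Agent.GaloisBasic.TracePairing

/-!
# Traces in a two-dimensional representation with spanning image

Trace and determinant of powers, and elements with traces other than the Eisenstein ones.
-/

set_option autoImplicit false

noncomputable section

namespace FermatAgent.LR

variable {k : Type*} [Field k]

theorem det_sub_one (A : Matrix (Fin 2) (Fin 2) k) : (A - 1).det = A.det - A.trace + 1 := by
  simp [Matrix.det_fin_two, Matrix.trace_fin_two]; ring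

theorem trace_pow_of_eig (A : Matrix (Fin 2) (Fin 2) k) {e : k} (he : e * e = 1)
    (ht : A.trace = e * (1 + A.det))
    (j : ℕ) : (A ^ j).trace = e ^ j * (1 + A.det ^ j) := by
  induction j using Nat.twoStepInduction with
  | zero => simp; ring
  | one => simpa using ht
  | more j h h' =>
    have e1 : A ^ (j + 2) = A.trace • A ^ (j + 1) - A.det • A ^ j := by
      rw [pow_add, sq, Assembly.IndexTwo.mul_self_eq, mul_sub, mul_smul_comm, mul_smul_comm,
        mul_one,
        ← pow_succ]
    rw [e1, Matrix.trace_sub, Matrix.trace_smul, Matrix.trace_smul, h, h', ht, smul_eq_mul,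
      smul_eq_mul, pow_succ e (j + 1), pow_succ e j, pow_succ A.det (j + 1), pow_succ A.det j]
    linear_combination (A.det * e ^ j * (1 + A.det ^ j)) * he

theorem trace_conj_nilpotent (X g : Matrix (Fin 2) (Fin 2) k) (ht : X.trace = 0) (hd : X.det = 0) :
    (X * g * X * g.adjugate).trace = -(X * g).trace ^ 2 := by
  rw [Matrix.trace_fin_two] at ht
  rw [Matrix.det_fin_two] at hd
  have h11 : X 1 1 = -X 0 0 := by linear_combination ht
  rw [h11] at hd
  simp [Matrix.trace_fin_two, Matrix.mul_apply, Fin.sum_univ_two, Matrix.adjugate_fin_two, h11]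
  linear_combination -(g 0 0 ^ 2 + g 1 1 ^ 2 + 2 * g 0 1 * g 1 0) * hd

variable {G : Type*} [Group G] (ρ : G →* Matrix (Fin 2) (Fin 2) k)

/-- A matrix orthogonal to a spanning image is zero. -/
theorem eq_zero_of_trace (hspan : Submodule.span k (Set.range ρ) = ⊤) {X : Matrix (Fin 2) (Fin 2) k}
    (h : ∀ g, (X * ρ g).trace = 0) : X = 0 :=
  GaloisBasic.eq_zero_of_trace_mul_span hspan h

/-- The centre of a spanning image is scalar. -/
theorem eq_scalar_of_commute (hspan : Submodule.span k (Set.range ρ) = ⊤)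
    {X : Matrix (Fin 2) (Fin 2) k}
    (h : ∀ g, X * ρ g = ρ g * X) : X = X 0 0 • (1 : Matrix (Fin 2) (Fin 2) k) := by
  obtain ⟨r, rfl⟩ := Assembly.IndexTwo.scalar_of_commute ρ hspan h
  simp

/-- Some element of determinant one in the kernel of an abelian character has trace other
than two. -/
theorem exists_trace_ne_two (hspan : Submodule.span k (Set.range ρ) = ⊤) {A : Type*}
    [CommGroup A] (χ : G →* A) :
    ∃ g, χ g = 1 ∧ (ρ g).det = 1 ∧ (ρ g).trace ≠ 2 := by
  by_contra hcon
  push Not at hcon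
  have key : ∀ h, χ h = 1 → (ρ h).det = 1 → ρ h = 1 := fun h hχ hd => by
    have ht := hcon h hχ hd
    set X := ρ h - 1 with hX
    have hXt : X.trace = 0 := by simp [hX, Matrix.trace_sub, ht]
    have hXd : X.det = 0 := by rw [hX, det_sub_one, hd, ht]; ring
    refine sub_eq_zero.mp (eq_zero_of_trace ρ hspan (X := X) fun g => ?_)
    have hdet : (ρ g).det * (ρ g⁻¹).det = 1 := by
      rw [← Matrix.det_mul, ← map_mul, mul_inv_cancel, map_one, Matrix.det_one]
    have h2 := hcon (h * (g * h * g⁻¹)) (by simp [hχ]) (by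
      rw [map_mul, map_mul, map_mul, Matrix.det_mul, Matrix.det_mul, Matrix.det_mul, hd]
      linear_combination hdet)
    have hgg : ρ g * ρ g⁻¹ = 1 := by rw [← map_mul, mul_inv_cancel, map_one]
    have h3 : (X * ρ g * X * ρ g⁻¹).trace = 0 := by
      have e : X * ρ g * X * ρ g⁻¹ =
          ρ (h * (g * h * g⁻¹)) - ρ h - ρ g * ρ h * ρ g⁻¹ + ρ g * ρ g⁻¹ := by
        simp only [hX, map_mul, sub_mul, mul_sub, one_mul, mul_one, mul_assoc]
        rw [hgg]
        simp only [mul_one]
        abel
      rw [e, Matrix.trace_add, Matrix.trace_sub, Matrix.trace_sub, h2,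
        Matrix.trace_mul_cycle, ← map_mul ρ g⁻¹ g, inv_mul_cancel, map_one, one_mul, hgg, ht,
        Matrix.trace_one]
      simp
    have hadj : (ρ g).adjugate = (ρ g).det • ρ g⁻¹ := by
      conv_lhs => rw [← mul_one (ρ g).adjugate, ← hgg, ← mul_assoc, Matrix.adjugate_mul,
        smul_mul_assoc, one_mul]
    have h4 := trace_conj_nilpotent X (ρ g) hXt hXd
    rw [hadj, mul_smul_comm, Matrix.trace_smul, h3, smul_zero, eq_comm, neg_eq_zero] at h4
    exact eq_zero_of_pow_eq_zero h4
  have hcomm : ∀ g h, ρ g * ρ h = ρ h * ρ g := fun g h => by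
    have h1 := key (g * h * g⁻¹ * h⁻¹) (by simp [mul_comm (χ g)]) (by
      have hd : ∀ x, (ρ x).det * (ρ x⁻¹).det = 1 := fun x => by
        rw [← Matrix.det_mul, ← map_mul, mul_inv_cancel, map_one, Matrix.det_one]
      simp only [map_mul, Matrix.det_mul]
      linear_combination ((ρ h).det * (ρ h⁻¹).det) * hd g + hd h)
    rw [← map_mul, ← map_mul, show g * h = g * h * g⁻¹ * h⁻¹ * (h * g) by group, map_mul, h1,
      one_mul]
  have h1 : ∀ m : Matrix (Fin 2) (Fin 2) k, ∀ g, m * ρ g = ρ g * m := fun m g => by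
    have hm : m ∈ Submodule.span k (Set.range ρ) := hspan ▸ Submodule.mem_top
    induction hm using Submodule.span_induction with
    | mem m hm => obtain ⟨x, rfl⟩ := hm; exact hcomm x g
    | zero => simp
    | add a b _ _ ha hb => rw [mul_add, add_mul, ha, hb]
    | smul r a _ ha => rw [mul_smul_comm, smul_mul_assoc, ha]
  have h2 := congrFun₂ (eq_scalar_of_commute ρ hspan (h1 (Matrix.single 0 1 1))) 0 1
  simp at h2

/-- If the image spans and contains an involution of determinant `-1`, some trace squared differs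
from `(1 + det)²`. -/
theorem exists_trace_sq_ne (hspan : Submodule.span k (Set.range ρ) = ⊤) (h2 : (2 : k) ≠ 0) {c : G}
    (hc : c * c = 1) (hcd : (ρ c).det = -1) :
    ∃ g, (ρ g).trace ^ 2 ≠ (1 + (ρ g).det) ^ 2 := by
  by_contra hcon
  push Not at hcon
  have key : ∀ h, (ρ h).det = 1 →
      ∃ r : k, r * r = 1 ∧ ρ h = r • (1 : Matrix (Fin 2) (Fin 2) k) := fun h hd => by
    have ht := hcon h
    rw [hd] at ht
    -- the square is unipotent
    have hsq : (ρ (h * h)).trace = 2 := by
      rw [map_mul, Assembly.IndexTwo.mul_self_eq, Matrix.trace_sub, Matrix.trace_smul,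
        Matrix.trace_smul,
        hd,
        Matrix.trace_one, Fintype.card_fin]
      push_cast
      rw [smul_eq_mul, smul_eq_mul]
      linear_combination ht
    have hsd : (ρ (h * h)).det = 1 := by rw [map_mul, Matrix.det_mul, hd, mul_one]
    set u := h * h
    set X := ρ u - 1 with hX
    have huu : ρ u * ρ u = (2 : k) • ρ u - (1 : Matrix (Fin 2) (Fin 2) k) := by
      rw [Assembly.IndexTwo.mul_self_eq, hsq, hsd, one_smul]
    have hu1 : ρ u = 1 := sub_eq_zero.mp (eq_zero_of_trace ρ hspan (X := X) fun g => by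
      have e1 := hcon g
      have e2 := hcon (u * g)
      have e3 := hcon (u * u * g)
      rw [map_mul, Matrix.det_mul, hsd, one_mul] at e2
      rw [map_mul, map_mul, huu, Matrix.det_mul, ← huu, Matrix.det_mul, hsd, one_mul, one_mul,
        huu, sub_mul, one_mul, smul_mul_assoc, Matrix.trace_sub, Matrix.trace_smul,
        smul_eq_mul] at e3
      rw [hX, sub_mul, one_mul, Matrix.trace_sub]
      refine eq_zero_of_pow_eq_zero (n := 2) ((mul_eq_zero.mp ?_).resolve_left h2)
      linear_combination e3 - 2 * e2 + e1)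
    have hsc : (ρ h).trace • ρ h = (2 : k) • (1 : Matrix (Fin 2) (Fin 2) k) := by
      have e := Assembly.IndexTwo.mul_self_eq (ρ h)
      rw [← map_mul, hu1, hd, one_smul, eq_sub_iff_add_eq] at e
      rw [← e, two_smul]
    have htne : (ρ h).trace ≠ 0 := fun h0 => by
      rw [h0] at ht
      exact h2 (eq_zero_of_pow_eq_zero (n := 2) (by linear_combination -ht))
    refine ⟨(ρ h).trace⁻¹ * 2, ?_, ?_⟩
    · field_simp
      linear_combination -ht
    · rw [mul_smul, ← hsc, inv_smul_smul₀ htne]
  have hnc : ∃ g, ρ c * ρ g ≠ ρ g * ρ c := by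
    by_contra hall
    push Not at hall
    have e := eq_scalar_of_commute ρ hspan hall
    have e1 : ρ c * ρ c = 1 := by rw [← map_mul, hc, map_one]
    have e2 := congrFun₂ e1 0 0
    rw [e] at hcd e2
    simp at hcd e2
    exact h2 (by linear_combination hcd - e2)
  obtain ⟨g, hg⟩ := hnc
  have hcc : ρ c * ρ c = 1 := by rw [← map_mul, hc, map_one]
  obtain ⟨r, hr, hcg⟩ : ∃ r : k, r * r = 1 ∧ ρ c * ρ g = r • (ρ g * ρ c) := by
    obtain ⟨r, hr, e⟩ := key (c * g * c⁻¹ * g⁻¹) (by
      have hd : ∀ x, (ρ x).det * (ρ x⁻¹).det = 1 := fun x => by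
        rw [← Matrix.det_mul, ← map_mul, mul_inv_cancel, map_one, Matrix.det_one]
      simp only [map_mul, Matrix.det_mul]
      linear_combination ((ρ g).det * (ρ g⁻¹).det) * hd c + hd g)
    refine ⟨r, hr, ?_⟩
    rw [← map_mul, ← map_mul, show c * g = c * g * c⁻¹ * g⁻¹ * (g * c) by group, map_mul, e,
      smul_mul_assoc, one_mul]
  have hr1 : r = -1 := (mul_self_eq_one_iff.mp hr).resolve_left fun h => hg (by
    rw [hcg, h, one_smul])
  rw [hr1, neg_one_smul] at hcg
  have htg : (ρ g).trace = 0 := by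
    have e : (ρ c * ρ g * ρ c).trace = (ρ g).trace := by
      rw [Matrix.trace_mul_cycle, hcc, one_mul]
    rw [hcg, neg_mul, mul_assoc, hcc, mul_one, Matrix.trace_neg] at e
    exact (mul_eq_zero.mp (show (2 : k) * (ρ g).trace = 0 by linear_combination -e)).resolve_left h2
  have hdg : (ρ g).det = -1 := by
    have e := hcon g
    rw [htg] at e
    have h0 : (1 + (ρ g).det) ^ 2 = 0 := by rw [← e]; ring
    linear_combination eq_zero_of_pow_eq_zero h0
  obtain ⟨s, -, hs⟩ := key (c * g) (by rw [map_mul, Matrix.det_mul, hcd, hdg]; ring)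
  have hgs : ρ g = s • ρ c := by
    rw [← one_mul (ρ g), ← hcc, mul_assoc, ← map_mul ρ c g, hs, mul_smul_comm, mul_one]
  exact hg (by rw [hgs, mul_smul_comm, smul_mul_assoc])

end FermatAgent.LR

end
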