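import Fermat.Agent.PSEMI.OrdinaryUnit
import Fermat.Agent.Switch.TorsionEquiv
import Fermat.Agent.Switch2.IrreducibleFive
import Fermat.Agent.EC.GoodPrimeTrace
import Fermat.Agent.HM.Gal.Local
import Fermat.Agent.LR.SpanTrace
import Fermat.Agent.GaloisBasic.CharpolyDensity

/-!
# Primes with non-Eisenstein traces

An irreducible `E[p]`, `p` odd, has primes `l ≡ 1 (mod n)` with `a_l ≢ l + 1`, and primes with
`a_l² ≢ (l + 1)²`. Only irreducibility is used.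
-/

set_option autoImplicit false

noncomputable section

open WeierstrassCurve WeierstrassCurve.Affine
open scoped WeierstrassCurve.Affine

namespace FermatAgent.LR

local notation "Qbar" => AlgebraicClosure ℚ
local notation "GQ" => AlgebraicClosure ℚ ≃ₐ[ℚ] AlgebraicClosure ℚ

/-- Irreducibility of `E[p]` passes to an integral model. -/
theorem modRepIsIrreducible_of_integralModel {E : WeierstrassCurve ℚ} {W : WeierstrassCurve ℤ}
    (hW : W.IsIntegralModelOf E) {p : ℕ} [Fact p.Prime]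
    (h : Affine.Point.GaloisRepIsIrreducible (K := AlgebraicClosure ℚ) ℚ E p) :
    W.ModRepIsIrreducible p := by
  classical
  obtain ⟨C, hC⟩ := hW
  obtain ⟨f, hf, hσ⟩ := Switch.exists_pointsHom_of_variableChange C hC
  let g : Submodule.torsionBy ℤ ((W.map (Int.castRingHom ℚ))⁄Qbar).Point (p : ℕ) →+
      Submodule.torsionBy ℤ (E⁄Qbar).Point (p : ℕ) :=
    { toFun := fun x => ⟨f x.1, by
        rw [Submodule.mem_torsionBy_iff, ← map_zsmul, (Submodule.mem_torsionBy_iff _ _).1 x.2,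
          map_zero]⟩
      map_zero' := Subtype.ext (map_zero f)
      map_add' := fun x y => Subtype.ext (map_add f x.1 y.1) }
  have hg : Function.Bijective g := ⟨fun x y h => Subtype.ext (hf.1 (congrArg Subtype.val h)),
    fun y => by
      obtain ⟨P, hP⟩ := hf.2 y.1
      exact ⟨⟨P, (Submodule.mem_torsionBy_iff _ _).2 (hf.1 (by
        rw [map_zsmul, hP, map_zero, (Submodule.mem_torsionBy_iff _ _).1 y.2]))⟩, Subtype.ext hP⟩⟩
  obtain ⟨hnt, hN⟩ := h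
  refine ⟨?_, fun N hst => ?_⟩
  · have : Nontrivial _ := hnt
    exact hg.2.nontrivial
  set φ := g.toZModLinearMap p with hφ
  have hinj : Function.Injective φ := hg.1
  rcases hN (N.map φ) (fun σ y hy => by
      obtain ⟨x, hx, rfl⟩ := hy
      exact ⟨σ • x, hst σ x hx, Subtype.ext (hσ σ x.1)⟩) with e | e
  · exact Or.inl (Submodule.map_injective_of_injective hinj (e.trans (Submodule.map_bot φ).symm))
  · refine Or.inr (Submodule.map_injective_of_injective hinj (e.trans ?_))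
    rw [Submodule.map_top, LinearMap.range_eq_top.2 hg.2]

section Curve

variable {W : WeierstrassCurve ℤ} {p : ℕ} [hp : Fact p.Prime]

/-- The torsion in a basis, and a Frobenius realising the image of a given element. -/
theorem exists_matrix_rep (hΔ : W.Δ ≠ 0) (hp2 : p ≠ 2) (hirr : W.ModRepIsIrreducible p) :
    ∃ ρ : GQ →* Matrix (Fin 2) (Fin 2) (ZMod p), Submodule.span (ZMod p) (Set.range ρ) = ⊤ ∧
      (ρ complexConjugation).det = -1 ∧
      ∀ (g : GQ) (n : ℕ) [NeZero n] (S : Finset ℕ), ∃ (l j m : ℕ) (σ : GQ), l.Prime ∧ l ∉ S ∧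
        W.IsGoodPrimeFor l ∧ l ≠ p ∧ ρ g = ρ σ ^ j ∧ ρ σ = ρ g ^ m ∧
        (HM.cycloN n g = 1 → (l : ZMod n) = 1) ∧
        (ρ σ).trace = (W.apOfModel l : ZMod p) ∧ (ρ σ).det = (l : ZMod p) := by
  classical
  obtain ⟨b, hb⟩ := PSEMI.exists_basis_span_torRep hΔ hp2 hirr
  refine ⟨(LinearMap.toMatrixAlgEquiv b : _ →* Matrix (Fin 2) (Fin 2) (ZMod p)).comp
    (Assembly.torRep W hΔ p).ρ, ?_, ?_, fun g n _ S => ?_⟩
  · rw [MonoidHom.coe_comp, ← hb]
    rfl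
  · exact (LinearMap.det_toMatrix b ((Assembly.torRep W hΔ p).ρ complexConjugation)).trans
      (EC.det_complexConjugation hΔ)
  set ρ := (LinearMap.toMatrixAlgEquiv b : _ →* Matrix (Fin 2) (Fin 2) (ZMod p)).comp
    (Assembly.torRep W hΔ p).ρ
  obtain ⟨L₁, hL₁, h₁⟩ := (Assembly.torRep W hΔ p).factorsThroughFiniteLevel
  obtain ⟨L₂, hL₂, h₂⟩ := HM.exists_level_cycloN n
  have := hL₁; have := hL₂
  obtain ⟨l, A, σ, j, m, hl, hlS, hA, hσ, -, hj, hm⟩ :=
    GaloisBasic.exists_frobenius_pow_congr (L₁ ⊔ L₂) g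
      (S ∪ n.primeFactors ∪ W.Δ.natAbs.primeFactors ∪ {p})
  simp only [Finset.mem_union, Finset.mem_singleton, not_or] at hlS
  obtain ⟨⟨⟨hlS, hln⟩, hlΔ⟩, hlp⟩ := hlS
  have hgood : W.IsGoodPrimeFor l := fun h => hlΔ (Nat.mem_primeFactors.mpr
    ⟨hl, Int.natCast_dvd.mp h, Int.natAbs_ne_zero.mpr hΔ⟩)
  have hfix : ∀ τ ∈ (L₁ ⊔ L₂).fixingSubgroup, ρ τ = 1 ∧ HM.cycloN n τ = 1 := fun τ hτ => by
    refine ⟨?_, h₂ τ fun x hx => (IntermediateField.mem_fixingSubgroup_iff _ _).mp hτ x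
      (SetLike.le_def.mp le_sup_right hx)⟩
    rw [show ρ τ = LinearMap.toMatrixAlgEquiv b ((Assembly.torRep W hΔ p).ρ τ) from rfl,
      h₁ τ fun x hx => (IntermediateField.mem_fixingSubgroup_iff _ _).mp hτ x
        (SetLike.le_def.mp le_sup_left hx), map_one]
  have hg1 : ρ g = ρ σ ^ j := by
    rw [← map_pow, ← mul_inv_cancel_left (σ ^ j) g, map_mul ρ (σ ^ j), (hfix _ hj).1, mul_one]
  have hσ1 : ρ σ = ρ g ^ m := by
    rw [← map_pow, ← mul_inv_cancel_left (g ^ m) σ, map_mul ρ (g ^ m), (hfix _ hm).1, mul_one]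
  refine ⟨l, j, m, σ, hl, hlS, hgood, hlp, hg1, hσ1, fun hgc => ?_, ?_, ?_⟩
  · have hln' : ¬ l ∣ n := fun h => hln (Nat.mem_primeFactors.mpr ⟨hl, h, NeZero.ne n⟩)
    have e : HM.cycloN n σ = 1 := by
      rw [← mul_inv_cancel_left (g ^ m) σ, map_mul (HM.cycloN n) (g ^ m), (hfix _ hm).2, mul_one,
        map_pow, hgc, one_pow]
    rw [HM.cycloN_frobenius hl hln' hA hσ] at e
    simpa using congrArg Units.val e
  · exact (LinearMap.trace_eq_matrix_trace (ZMod p) b ((Assembly.torRep W hΔ p).ρ σ)).symm.trans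
      (EC.galoisTrace_frobenius_eq_apOfModel W hl hgood hlp hA hσ)
  · exact (LinearMap.det_toMatrix b ((Assembly.torRep W hΔ p).ρ σ)).trans
      (EC.det_frobenius hΔ hl hlp hA hσ)

end Curve

variable {E : WeierstrassCurve ℚ} [E.IsElliptic] {W : WeierstrassCurve ℤ}

theorem Δ_ne_zero_of_integralModel (hW : W.IsIntegralModelOf E) : W.Δ ≠ 0 := fun h => by
  obtain ⟨C, hC⟩ := hW
  have h1 := congrArg WeierstrassCurve.Δ hC
  rw [variableChange_Δ, WeierstrassCurve.map_Δ, h, map_zero] at h1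
  exact mul_ne_zero (pow_ne_zero _ (Units.ne_zero _)) E.isUnit_Δ.ne_zero h1

/-- **A prime `l ≡ 1 (mod n)` with `a_l ≢ l + 1`.** -/
theorem exists_prime_one_mod_ne (hW : W.IsIntegralModelOf E) {p : ℕ} (hp : p.Prime) (hp2 : p ≠ 2)
    (hirr : Affine.Point.GaloisRepIsIrreducible (K := AlgebraicClosure ℚ) ℚ E p)
    (n : ℕ) [NeZero n] (S : Finset ℕ) :
    ∃ l : ℕ, l.Prime ∧ l ∉ S ∧ (l : ZMod n) = 1 ∧ W.IsGoodPrimeFor l ∧ l ≠ p ∧
      ((W.apOfModel l : ℤ) : ZMod p) ≠ (l : ZMod p) + 1 := by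
  have := Fact.mk hp
  have hΔ := Δ_ne_zero_of_integralModel hW
  obtain ⟨ρ, hspan, -, hfrob⟩ :=
    exists_matrix_rep hΔ hp2 (modRepIsIrreducible_of_integralModel hW hirr)
  obtain ⟨g, hg, hgd, hgt⟩ := exists_trace_ne_two ρ hspan (HM.cycloN n)
  obtain ⟨l, j, m, σ, hl, hlS, hgood, hlp, hj, hm, hn, ht, hd⟩ := hfrob g n S
  refine ⟨l, hl, hlS, hn hg, hgood, hlp, fun h => hgt ?_⟩
  have hσd : (ρ σ).det = 1 := by rw [hm, Matrix.det_pow, hgd, one_pow]
  rw [hj, trace_pow_of_eig (ρ σ) (e := 1) (mul_one 1) (by rw [ht, h, hd]; ring), hσd]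
  simp [one_add_one_eq_two]

/-- **A prime with `a_l² ≢ (l + 1)²`**, for an integral model. -/
theorem exists_prime_sq_ne_model (hΔ : W.Δ ≠ 0) {p : ℕ} (hp : p.Prime) (hp2 : p ≠ 2)
    (hirr : W.ModRepIsIrreducible p) (S : Finset ℕ) :
    ∃ l : ℕ, l.Prime ∧ l ∉ S ∧ W.IsGoodPrimeFor l ∧ l ≠ p ∧
      ((W.apOfModel l : ℤ) : ZMod p) ^ 2 ≠ ((l : ZMod p) + 1) ^ 2 := by
  have := Fact.mk hp
  have h2 : (2 : ZMod p) ≠ 0 := fun h => hp2 ((Nat.prime_dvd_prime_iff_eq hp Nat.prime_two).mp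
    ((ZMod.natCast_eq_zero_iff 2 p).mp (by exact_mod_cast h)))
  obtain ⟨ρ, hspan, hcd, hfrob⟩ :=
    exists_matrix_rep hΔ hp2 hirr
  obtain ⟨g, hg⟩ := exists_trace_sq_ne ρ hspan h2 complexConjugation_mul_self hcd
  obtain ⟨l, j, m, σ, hl, hlS, hgood, hlp, hj, -, -, ht, hd⟩ := hfrob g 1 S
  refine ⟨l, hl, hlS, hgood, hlp, fun h => hg ?_⟩
  have main : ∀ e : ZMod p, e * e = 1 → (ρ σ).trace = e * (1 + (ρ σ).det) →
      (ρ g).trace ^ 2 = (1 + (ρ g).det) ^ 2 := fun e he het => by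
    rw [hj, trace_pow_of_eig (ρ σ) he het, Matrix.det_pow, mul_pow, ← pow_mul, mul_comm j 2,
      pow_mul, sq e, he, one_pow, one_mul]
  rcases sq_eq_sq_iff_eq_or_eq_neg.mp h with e | e
  · exact main 1 (mul_one 1) (by rw [ht, e, hd]; ring)
  · exact main (-1) (by ring) (by rw [ht, e, hd]; ring)

/-- **A prime with `a_l² ≢ (l + 1)²`.** -/
theorem exists_prime_sq_ne (hW : W.IsIntegralModelOf E) {p : ℕ} (hp : p.Prime) (hp2 : p ≠ 2)
    (hirr : Affine.Point.GaloisRepIsIrreducible (K := AlgebraicClosure ℚ) ℚ E p)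
    (S : Finset ℕ) :
    ∃ l : ℕ, l.Prime ∧ l ∉ S ∧ W.IsGoodPrimeFor l ∧ l ≠ p ∧
      ((W.apOfModel l : ℤ) : ZMod p) ^ 2 ≠ ((l : ZMod p) + 1) ^ 2 :=
  haveI := Fact.mk hp
  exists_prime_sq_ne_model (Δ_ne_zero_of_integralModel hW) hp hp2
    (modRepIsIrreducible_of_integralModel hW hirr) S

end FermatAgent.LR
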