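import Mathlib

/-!
# Two lemmas from commutative algebra
-/

set_option autoImplicit false

namespace FermatAgent.LR

variable {A : Type*} [CommRing A]

/-- **Nakayama at a prime.** -/
theorem exists_notMem_smul_eq_zero {Q : Type*} [AddCommGroup Q] [Module A Q] [Module.Finite A Q]
    (m : Ideal A) [m.IsPrime] {I : Ideal A} (hI : I ≤ m)
    (h : ∀ x : Q, ∃ s ∉ m, s • x ∈ I • (⊤ : Submodule A Q)) :
    ∃ s ∉ m, ∀ x : Q, s • x = 0 := by
  classical
  obtain ⟨T, hT⟩ := Module.Finite.fg_top (R := A) (M := Q)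
  choose s hs hsx using h
  set t := ∏ x ∈ T, s x with ht
  have htm : t ∉ m := fun hm => by
    obtain ⟨x, -, hx⟩ := (Ideal.IsPrime.prod_mem_iff (p := m)).mp hm
    exact hs x hx
  have hle : LinearMap.range (LinearMap.lsmul A Q t) ≤ I • (⊤ : Submodule A Q) := by
    rintro _ ⟨x, rfl⟩
    have hx : x ∈ Submodule.span A (T : Set Q) := by rw [hT]; trivial
    induction hx using Submodule.span_induction with
    | mem x hx =>
      rw [LinearMap.lsmul_apply, ht, ← Finset.mul_prod_erase T s hx, mul_comm, mul_smul]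
      exact Submodule.smul_mem _ _ (hsx x)
    | zero => rw [map_zero]; exact zero_mem _
    | add x y _ _ hx hy => rw [map_add]; exact add_mem hx hy
    | smul a x _ hx => rw [map_smul]; exact Submodule.smul_mem _ a hx
  obtain ⟨P, hmon, -, hco, hP⟩ :=
    LinearMap.exists_monic_and_natDegree_eq_and_coeff_mem_pow_and_aeval_eq_zero
      A (LinearMap.lsmul A Q t) I hle
  refine ⟨P.eval t, fun hm => ?_, fun x => ?_⟩
  · have hpow : t ^ P.natDegree ∈ m := by
      rw [Polynomial.eval_eq_sum_range, Finset.sum_range_succ, hmon.coeff_natDegree, one_mul] at hm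
      refine (Ideal.add_mem_iff_right m (Ideal.sum_mem m fun i hi => ?_)).mp hm
      refine Ideal.mul_mem_right _ _ (hI ?_)
      exact Ideal.pow_le_self (by have := Finset.mem_range.mp hi; omega) (hco i)
    exact htm (Ideal.IsPrime.mem_of_pow_mem inferInstance _ hpow)
  · have h1 := LinearMap.congr_fun hP x
    rw [show LinearMap.lsmul A Q t = algebraMap A (Module.End A Q) t from rfl,
      Polynomial.aeval_algebraMap_apply, Polynomial.coe_aeval_eq_eval] at h1
    simpa using h1

/-- Below a prime containing an ideal without `p`-torsion there is one not containing `p`. -/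
theorem exists_prime_le_notMem (I Q : Ideal A) [Q.IsPrime] (hIQ : I ≤ Q) (p : A)
    (hp : ∀ a, p * a ∈ I → a ∈ I) :
    ∃ Y : Ideal A, Y.IsPrime ∧ I ≤ Y ∧ Y ≤ Q ∧ p ∉ Y := by
  obtain ⟨Y, hY, hYQ⟩ := Ideal.exists_minimalPrimes_le hIQ
  have := hY.1.1
  refine ⟨Y, hY.1.1, hY.1.2, hYQ, fun hpY => ?_⟩
  obtain ⟨y, hy, hyx⟩ := Ideal.exists_mul_mem_of_mem_minimalPrimes hY hpY
  refine hy ?_
  exact hp y hyx

end FermatAgent.LR
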