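import Fermat.Agent.LR.Elliptic

/-!
# Surjectivity of pairs of cusps without a hypothesis at three

Homomorphisms on `Γ₀(M)` into a field of characteristic not two vanishing at the elliptic
elements of order three are combinations of those of pairs of cusps, and the image of
`T_ℓ - (ℓ + 1)` consists of such homomorphisms.
-/

set_option autoImplicit false

open CongruenceSubgroup
open scoped MatrixGroups OnePoint
open ModularGroup

noncomputable section

namespace FermatAgent.LR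

open FermatAgent.HM FermatAgent.HM.Dual

/-- The conjugates of `S * T` have trace one. -/
theorem trace_conj_ST (g : SL(2, ℤ)) :
    ((g⁻¹ * (S * T) * g : SL(2, ℤ))) 0 0 + ((g⁻¹ * (S * T) * g : SL(2, ℤ))) 1 1 = 1 := by
  rw [← Matrix.trace_fin_two, Matrix.SpecialLinearGroup.coe_mul, Matrix.trace_mul_comm,
    ← Matrix.SpecialLinearGroup.coe_mul, show g * (g⁻¹ * (S * T)) = S * T by group]
  decide

section

variable {Γ : Subgroup SL(2, ℤ)} {k : Type*} [Field k]

/-- A function of norm zero under `S * T` that vanishes at the fixed cosets is a difference. -/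
theorem exists_normSplit (hneg : (-1 : SL(2, ℤ)) ∈ Γ) {c : CosetFun Γ k}
    (hc : c + act (S * T) c + act ((S * T) * (S * T)) c = 0)
    (hfix : ∀ x, (S * T : SL(2, ℤ))⁻¹ • x = x → c x = 0) :
    ∃ y : CosetFun Γ k, y - act (S * T) y = c := by
  set U : SL(2, ℤ) := S * T
  have h3 : ∀ x : SL(2, ℤ) ⧸ Γ, U⁻¹ • U⁻¹ • U⁻¹ • x = x := fun x => by
    rw [← mul_smul, ← mul_smul,
      show U⁻¹ * U⁻¹ * U⁻¹ = -1 by rw [show U = S * T from rfl]; decide,
      neg_one_smul_coset hneg]
  let σ : Equiv.Perm (SL(2, ℤ) ⧸ Γ) := MulAction.toPerm U⁻¹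
  have hσ : ∀ x, σ x = U⁻¹ • x := fun _ => rfl
  obtain ⟨ε, hε0, hε⟩ := exists_orbit_split σ h3 k
  refine ⟨normSplit ε c, funext fun x => ?_⟩
  have e2 := congrFun hc x
  have e3 := h3 x
  simp only [normSplit, act, Pi.add_apply, Pi.mul_apply, Pi.sub_apply, Pi.zero_apply,
    mul_inv_rev, mul_smul, U] at e2 e3 ⊢
  rw [e3]
  by_cases hx : σ x = x
  · have h0 := hfix x hx
    have h1 := hε0 x hx
    simp only [hσ, U, mul_inv_rev, mul_smul] at hx
    simp [hx, h0, h1]
  · have e1 := hε x hx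
    simp only [hσ, U, mul_inv_rev, mul_smul] at e1
    linear_combination c x * e1 - ε x * e2

/-- **Surjectivity.** Homomorphisms vanishing at the elliptic elements of order three are
combinations of those of unimodular pairs. -/
theorem exists_eq_sum_cosetHom_of_elliptic [Fintype (SL(2, ℤ) ⧸ Γ)] (hneg : (-1 : SL(2, ℤ)) ∈ Γ)
    (h2 : (2 : k) ≠ 0) (φ : Additive Γ →+ k)
    (hell : ∀ (g : SL(2, ℤ)) (hg : g⁻¹ * (S * T) * g ∈ Γ), φ (Additive.ofMul ⟨_, hg⟩) = 0) :
    ∃ w : CosetFun Γ k, φ = ∑ x, w x • cosetHom Γ k x := by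
  set U : SL(2, ℤ) := S * T
  -- the cocycle of `φ`
  let r : SL(2, ℤ) ⧸ Γ → SL(2, ℤ) := fun x => x.out
  have hr : ∀ g x, (r x)⁻¹ * g * r (g⁻¹ • x) ∈ Γ := fun g x => by
    have h1 : (QuotientGroup.mk (r x) : SL(2, ℤ) ⧸ Γ) = QuotientGroup.mk (g * r (g⁻¹ • x)) := by
      change _ = g • (QuotientGroup.mk (r (g⁻¹ • x)) : SL(2, ℤ) ⧸ Γ)
      rw [show (QuotientGroup.mk (r (g⁻¹ • x)) : SL(2, ℤ) ⧸ Γ) = g⁻¹ • x from
        QuotientGroup.out_eq' _, smul_inv_smul]
      exact QuotientGroup.out_eq' x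
    rw [QuotientGroup.eq, ← mul_assoc] at h1
    exact h1
  let C : SL(2, ℤ) → CosetFun Γ k := fun g x => φ (Additive.ofMul ⟨_, hr g x⟩)
  have hC : IsCoc C := fun g g' => funext fun x => by
    simp only [C, Pi.add_apply, act, ← map_add, ← ofMul_mul]
    refine congrArg φ (congrArg Additive.ofMul (Subtype.ext ?_))
    simp only [Subgroup.coe_mul, mul_inv_rev, mul_smul]
    group
  have hC1 : C (-1) = 0 := funext fun x => by
    have h1 : φ (Additive.ofMul (⟨-1, hneg⟩ : Γ)) + φ (Additive.ofMul (⟨-1, hneg⟩ : Γ)) = 0 := by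
      rw [← map_add, ← ofMul_mul, show (⟨-1, hneg⟩ : Γ) * ⟨-1, hneg⟩ = 1 from Subtype.ext (by simp),
        ofMul_one, map_zero]
    have h1' := (mul_eq_zero.mp ((two_mul _).trans h1)).resolve_left h2
    refine Eq.trans (congrArg φ (congrArg Additive.ofMul (Subtype.ext ?_))) h1'
    simp only [inv_neg, inv_one, neg_one_smul_coset hneg]
    simp
  -- make it vanish at `S`
  set v : CosetFun Γ k := -((2 : k)⁻¹ • C S)
  let C₁ : SL(2, ℤ) → CosetFun Γ k := fun g => C g - (act g v - v)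
  have hC₁ : IsCoc C₁ := hC.sub_d v
  have hSS : C S + act S (C S) = 0 := by rw [← hC, show (S : SL(2, ℤ)) * S = -1 by decide, hC1]
  have h2' : (2 : k) * (2 : k)⁻¹ = 1 := mul_inv_cancel₀ h2
  have hC₁S : C₁ S = 0 := funext fun x => by
    have e := congrFun hSS x
    simp only [C₁, v, act, Pi.add_apply, Pi.sub_apply, Pi.neg_apply, Pi.smul_apply,
      Pi.zero_apply, smul_eq_mul] at e ⊢
    linear_combination (2 : k)⁻¹ * e - C S x * h2'
  have hnorm : C₁ U + act U (C₁ U) + act (U * U) (C₁ U) = 0 := by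
    have hU : (U * U) * U = -1 := by rw [show U = S * T from rfl]; decide
    have h1 : C₁ (-1) = 0 := funext fun x => by
      simp [C₁, hC1, act, inv_neg, inv_one, neg_one_smul_coset hneg]
    rw [← hC₁, ← hC₁, hU, h1]
  -- split off a symmetric part
  have hfixU : ∀ x, U⁻¹ • x = x → C₁ U x = 0 := fun x hx => by
    simp only [C₁, C, Pi.sub_apply, act, hx, sub_self, sub_zero]
    exact hell (r x) _
  obtain ⟨y, hy⟩ := exists_normSplit hneg hnorm hfixU
  set v₀ : CosetFun Γ k := -((2 : k)⁻¹ • (y + act S y))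
  let C₂ : SL(2, ℤ) → CosetFun Γ k := fun g => C₁ g - (act g v₀ - v₀)
  have hC₂ : IsCoc C₂ := hC₁.sub_d v₀
  have hSSy : act S (act S y) = y := by
    rw [← act_mul, show (S : SL(2, ℤ)) * S = -1 by decide]
    funext x
    simp [act, inv_neg, inv_one, neg_one_smul_coset hneg]
  have hC₂S : C₂ S = weightCoc Γ y S := by
    rw [weightCoc_S]
    funext x
    have e := congrFun hSSy x
    have e' := congrFun hC₁S x
    simp only [C₂, v₀, act, Pi.add_apply, Pi.sub_apply, Pi.neg_apply, Pi.smul_apply,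
      Pi.zero_apply, smul_eq_mul] at e e' ⊢
    linear_combination e' + (2 : k)⁻¹ * e
  have hw := isCoc_weightCoc (Γ := Γ) (k := k) y
  have hC₂T : C₂ T = weightCoc Γ y T := by
    have h1 : act S (C₂ T) = C₂ U - C₂ S := by rw [show U = S * T from rfl, hC₂ S T]; abel
    have h2 : act S (weightCoc Γ y T) = C₂ U - C₂ S := by
      rw [hC₂S, weightCoc_S, weightCoc_T hneg h2, sub_zero]
      funext x
      have e := congrFun hy x
      have e' := congrFun hSSy x
      have e'' := congrFun (congrArg (act T) hSSy) x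
      simp only [C₂, v₀, U, act, Pi.add_apply, Pi.sub_apply, Pi.neg_apply, Pi.smul_apply,
        smul_eq_mul, mul_inv_rev, mul_smul] at e e' e'' ⊢
      rw [← e]
      have e3 : y (S⁻¹ • S⁻¹ • x) = y x := e'
      rw [e3]
      linear_combination (y x - y (T⁻¹ • S⁻¹ • x)) * h2'
    have h3 := congrArg (act S⁻¹) (h1.trans h2.symm)
    rwa [← act_mul, ← act_mul, inv_mul_cancel, act_one, act_one] at h3
  have heq := hC₂.ext hw hC₂S hC₂T
  refine ⟨y, AddMonoidHom.ext fun γ => ?_⟩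
  obtain ⟨γ, rfl⟩ := Additive.ofMul.surjective γ
  rw [AddMonoidHom.finsetSum_apply]
  simp only [AddMonoidHom.smul_apply, smul_eq_mul]
  rw [← weightCoc_restrict y γ, ← heq]
  have hfix : ((γ : SL(2, ℤ)))⁻¹ • (QuotientGroup.mk 1 : SL(2, ℤ) ⧸ Γ) = QuotientGroup.mk 1 := by
    change QuotientGroup.mk ((γ : SL(2, ℤ))⁻¹ * 1) = _
    rw [QuotientGroup.eq]
    simp
  simp only [C₂, C₁, C, Pi.sub_apply, act, hfix, sub_self, sub_zero]
  have hr0 : r (QuotientGroup.mk 1) ∈ Γ := by
    have h1 : (QuotientGroup.mk (r (QuotientGroup.mk 1)) : SL(2, ℤ) ⧸ Γ) = QuotientGroup.mk 1 :=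
      QuotientGroup.out_eq' _
    rw [eq_comm, QuotientGroup.eq] at h1
    simpa using h1
  set a : Γ := ⟨_, hr0⟩
  have h1 : φ (Additive.ofMul (a⁻¹ * γ * a)) = φ (Additive.ofMul γ) := by
    simp only [ofMul_mul, ofMul_inv, map_add, map_neg]
    abel
  exact h1.symm.trans (congrArg φ (congrArg Additive.ofMul (Subtype.ext (by simp [a, r]))))

end

variable {k : Type} [Field k]

/-- A functional killing the homomorphisms of pairs and an eigenvector of a Hecke operator away
from the Eisenstein value is zero. -/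
theorem functional_eq_zero_of_hecke {M p L N : ℕ} [NeZero M] [Fact p.Prime] (h2 : (2 : k) ≠ 0)
    (hNM : N ∣ M) (hpL : p.Coprime L) (hpM : ¬ p ∣ M) {c : k}
    (ψ : (Additive (Gamma0 M) →+ k) →ₗ[k] k)
    (h : ∀ u v : V2, u ≠ 0 → v ≠ 0 → ψ (cuspHom (Gamma0 M) k u v) = 0)
    (hT : ∀ φ, ψ ((heckeCorr hNM hpL).homOp φ) = c * ψ φ) (hne : c ≠ (p : k) + 1) : ψ = 0 := by
  have : Fintype (SL(2, ℤ) ⧸ Gamma0 M) := Fintype.ofFinite _
  refine LinearMap.ext fun φ => ?_
  rw [LinearMap.zero_apply]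
  set φ' := (heckeCorr hNM hpL).homOp φ - ((p : k) + 1) • φ
  obtain ⟨w, hw⟩ := exists_eq_sum_cosetHom_of_elliptic (neg_one_mem_gamma0 M) h2 φ' fun g hg => by
    simp only [φ', AddMonoidHom.sub_apply, AddMonoidHom.smul_apply, smul_eq_mul,
      homOp_hecke_elliptic h2 hNM hpL hpM φ ⟨_, hg⟩ (trace_conj_ST g), sub_self]
  have h0 : ψ φ' = 0 := by
    rw [hw, map_sum]
    refine Finset.sum_eq_zero fun x _ => ?_
    rw [map_smul, cosetHom,
      h _ _ (mulVec_ne_zero (det_coe_pos _).ne' fun h0 => one_ne_zero (congrFun h0 0))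
        (mulVec_ne_zero (det_coe_pos _).ne' fun h0 => one_ne_zero (congrFun h0 1)), smul_zero]
  rw [map_sub, hT, map_smul, smul_eq_mul, ← sub_mul] at h0
  exact (mul_eq_zero.mp h0).resolve_left (sub_ne_zero.mpr hne)

end FermatAgent.LR
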