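import Fermat.Agent.LR.Reduce
import Fermat.Agent.Lifting.EigenVector

/-!
# The eigenvector modulo `p` of a congruent eigenform, as a class
-/

set_option autoImplicit false

noncomputable section

open scoped MatrixGroups
open CongruenceSubgroup MvPolynomial ModularCurve.Period

namespace FermatAgent.LR

open FermatAgent.HM
open Assembly (ZC)

variable {p : ℕ} [hp : Fact p.Prime]

lemma toZMod_eq_zero {a : ℤ_[p]} (h : PadicInt.toZMod a = 0) : (p : ℤ_[p]) ∣ a := by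
  have h1 : a ∈ RingHom.ker (PadicInt.toZMod : ℤ_[p] →+* ZMod p) := h
  rwa [PadicInt.ker_toZMod, PadicInt.maximalIdeal_eq_span_p, Ideal.mem_span_singleton] at h1

/-- **The eigenvector as a class with residual eigenvalues.** -/
theorem exists_eigenclass {L M : ℕ} [NeZero M] {κ : Type} (pr : κ → HPrime L)
    {g : CuspForm (Gamma0 M) 2} (hg : g.IsNormalizedEigenform) {𝔪' : Ideal ZC} (hmax : 𝔪'.IsMaximal)
    (hmem : (p : ZC) ∈ 𝔪') :
    ∃ x : TrivH1 ℤ_[p] M pr ℤ_[p], red PadicInt.toZMod pr x ≠ 0 ∧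
      ∀ (i : κ) (b : ℤ), ¬ ((pr i).1.1 : ℕ) ∣ M →
        (∃ a : ZC, (a : ℂ) = ModularFormClass.qCoeff g ((pr i).1.1 : ℕ) ∧ a - (b : ZC) ∈ 𝔪') →
        (MvPolynomial.X i : MvPolynomial κ (ZMod p)) • red PadicInt.toZMod pr x =
          (b : ZMod p) • red PadicInt.toZMod pr x := by
  have : IsAddTorsionFree ℤ_[p] := .of_isTorsionFree ℤ_[p] ℤ_[p]
  obtain ⟨Φ, ⟨γ₀, hγ₀⟩, hΦ⟩ := Lifting.exists_int_eigenHom (p := p) hg hmax hmem
  set r : ℤ_[p] →+* ZMod p := PadicInt.toZMod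
  let x : TrivH1 ℤ_[p] M pr ℤ_[p] :=
    (trivHom ℤ_[p] M pr ℤ_[p]).symm ((Int.castRingHom ℤ_[p]).toAddMonoidHom.comp Φ.1)
  have hx : ∀ γ, trivHom ℤ_[p] M pr ℤ_[p] x γ = ((Φ.1 γ : ℤ) : ℤ_[p]) := fun γ =>
    DFunLike.congr_fun (LinearEquiv.apply_symm_apply _ _) γ
  refine ⟨x, fun h => hγ₀ ?_, fun i b hi hb => ?_⟩
  · simpa [hx] using (red_eq_zero_iff r x).mp h γ₀
  · have : Fact (pr i).1.1.Prime := ⟨(pr i).1.2⟩
    rw [show (b : ZMod p) = r (b : ℤ_[p]) by simp, ← red_smul, ← red_X, ← sub_eq_zero, ← map_sub,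
      red_eq_zero_iff]
    intro γ
    rw [map_sub, trivHom_X, map_smul, AddMonoidHom.sub_apply, AddMonoidHom.smul_apply, hx,
      homOp_heckeCorr_eq (S := ℤ_[p]) (pr i).2 hi,
      show trivHom ℤ_[p] M pr ℤ_[p] x = _ from LinearEquiv.apply_symm_apply _ _,
      Period.heckeOp_comp ℤ, map_sub, sub_eq_zero, smul_eq_mul, map_mul, map_intCast, map_intCast]
    show r ((_ : ℤ) : ℤ_[p]) = _
    rw [map_intCast, hΦ _ (pr i).1.2 b hb γ]

end FermatAgent.LR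

end
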