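import Fermat.Agent.HM.Dual.Gamma0

/-!
# Elliptic elements of order three and Hecke operators

The value of a Hecke transfer at an element of trace one of `Γ₀(M)` is `ℓ + 1` times the value
at the element, for every prime `ℓ ∤ M`, with coefficients in a field of characteristic not two.
So the transfer minus `ℓ + 1` vanishes at these elements, also in characteristic three.
-/

set_option autoImplicit false

noncomputable section

open scoped MatrixGroups
open CongruenceSubgroup ModularGroup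

namespace FermatAgent.LR

open FermatAgent.HM FermatAgent.HM.Dual

section Orbits

variable {α : Type*} (σ : Equiv.Perm α)

/-- A permutation of order dividing three has representatives of its orbits of length three. -/
theorem exists_orbit_split (h3 : ∀ x, σ (σ (σ x)) = x) (R : Type*) [Ring R] :
    ∃ ε : α → R, (∀ x, σ x = x → ε x = 0) ∧
      ∀ x, σ x ≠ x → ε x + ε (σ x) + ε (σ (σ x)) = 1 := by
  classical
  let s : Setoid α :=
    { r := fun x y => y = x ∨ y = σ x ∨ y = σ (σ x)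
      iseqv := ⟨fun x => Or.inl rfl,
        fun {x y} h => by
          rcases h with rfl | rfl | rfl
          · exact Or.inl rfl
          · exact Or.inr (Or.inr (h3 x).symm)
          · exact Or.inr (Or.inl (by rw [h3])),
        fun {x y z} h h' => by
          rcases h with rfl | rfl | rfl <;> rcases h' with rfl | rfl | rfl <;> simp [h3]⟩ }
  let rep : α → α := fun x => (Quotient.mk s x).out
  have hrep : ∀ x, rep x = x ∨ rep x = σ x ∨ rep x = σ (σ x) := fun x =>
    s.symm (Quotient.mk_out (s := s) x)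
  have hinv : ∀ x, rep (σ x) = rep x := fun x =>
    congrArg Quotient.out (Quotient.sound (s := s) (s.symm (Or.inr (Or.inl rfl) : s x (σ x))))
  refine ⟨fun x => if σ x ≠ x ∧ rep x = x then 1 else 0, fun x hx => if_neg fun h => h.1 hx,
    fun x hx => ?_⟩
  have h1 : σ (σ x) ≠ σ x := fun h => hx (σ.injective h)
  have h2 : σ (σ (σ x)) ≠ σ (σ x) := fun h => h1 (σ.injective h)
  have e1 : rep (σ x) = rep x := hinv x
  have e2 : rep (σ (σ x)) = rep x := (hinv (σ x)).trans (hinv x)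
  have hne : σ (σ x) ≠ x := fun h => hx (by
    have := congrArg σ h
    rwa [h3, eq_comm] at this)
  simp only [hx, h1, h2, e1, e2, ne_eq, not_false_eq_true, true_and]
  rcases hrep x with h | h | h <;> rw [h]
  · simp [Ne.symm hx, Ne.symm hne]
  · simp [hx, Ne.symm h1]
  · simp [h1, hne]

/-- A function vanishing at the fixed points and with orbit sums zero has total zero. -/
theorem sum_eq_zero_of_orbits [Fintype α] {R : Type*} [Ring R] (h3 : ∀ x, σ (σ (σ x)) = x)
    (f : α → R) (hfix : ∀ x, σ x = x → f x = 0)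
    (horb : ∀ x, f x + f (σ x) + f (σ (σ x)) = 0) : ∑ x, f x = 0 := by
  obtain ⟨ε, hε0, hε⟩ := exists_orbit_split σ h3 R
  calc ∑ x, f x = ∑ x, f x * (ε x + ε (σ x) + ε (σ (σ x))) := by
        refine Finset.sum_congr rfl fun x _ => ?_
        by_cases hx : σ x = x
        · rw [hfix x hx, zero_mul]
        · rw [hε x hx, mul_one]
    _ = ∑ x, f x * ε x + ∑ x, f (σ (σ x)) * ε x + ∑ x, f (σ x) * ε x := by
        simp only [mul_add, Finset.sum_add_distrib]
        congr 1
        · congr 1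
          rw [← Equiv.sum_comp σ fun x => f (σ (σ x)) * ε x]
          simp only [h3]
        · rw [← Equiv.sum_comp (σ.trans σ) fun x => f (σ x) * ε x]
          simp only [Equiv.trans_apply, h3]
    _ = 0 := by
        rw [← Finset.sum_add_distrib, ← Finset.sum_add_distrib]
        refine Finset.sum_eq_zero fun x _ => ?_
        rw [← add_mul, ← add_mul, add_right_comm, horb, zero_mul]

end Orbits

section Conjugacy

/-- Every element of trace one with positive lower left entry is conjugate to `S * T`. -/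
theorem exists_conj_ellU (γ : SL(2, ℤ)) (htr : γ 0 0 + γ 1 1 = 1) (hc : 0 < γ 1 0) :
    ∃ g : SL(2, ℤ), γ = g * (S * T) * g⁻¹ := by
  suffices H : ∀ (n : ℕ) (γ : SL(2, ℤ)), γ 0 0 + γ 1 1 = 1 → 0 < γ 1 0 → (γ 1 0).toNat ≤ n →
      ∃ g : SL(2, ℤ), γ = g * (S * T) * g⁻¹ from H _ γ htr hc le_rfl
  intro n
  induction n with
  | zero => intro γ _ hc hn; omega
  | succ n ih =>
    intro γ htr hc hn
    obtain ⟨k, hk⟩ : ∃ k : ℤ, |2 * (γ 0 0 + k * γ 1 0) - 1| ≤ γ 1 0 := by
      refine ⟨-((2 * γ 0 0 + γ 1 0 - 1) / (2 * γ 1 0)), ?_⟩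
      have h1 := Int.emod_add_mul_ediv (2 * γ 0 0 + γ 1 0 - 1) (2 * γ 1 0)
      have h2 := Int.emod_nonneg (2 * γ 0 0 + γ 1 0 - 1) (by omega : 2 * γ 1 0 ≠ 0)
      have h3 := Int.emod_lt_of_pos (2 * γ 0 0 + γ 1 0 - 1) (by omega : 0 < 2 * γ 1 0)
      rw [abs_le]
      constructor <;> nlinarith
    set δ : SL(2, ℤ) := T ^ k * γ * (T ^ k)⁻¹ with hδ
    have hback : γ = (T ^ k)⁻¹ * δ * T ^ k := by rw [hδ]; group
    have hentry : δ 0 0 = γ 0 0 + k * γ 1 0 ∧ δ 1 0 = γ 1 0 ∧
        δ 0 0 + δ 1 1 = γ 0 0 + γ 1 1 := by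
      simp [hδ, Matrix.SpecialLinearGroup.coe_mul, Matrix.SpecialLinearGroup.coe_inv, coe_T_zpow,
        Matrix.adjugate_fin_two, Matrix.mul_apply, Fin.sum_univ_two,
        Matrix.vecMul, dotProduct]
      ring
    obtain ⟨e00, e10, etr⟩ := hentry
    have hdet := δ.det_coe
    rw [Matrix.det_fin_two] at hdet
    rcases eq_or_lt_of_le (show 1 ≤ γ 1 0 by omega) with h1 | h1
    · refine ⟨(T ^ k)⁻¹ * T ^ (δ 0 0), ?_⟩
      have hST : δ = T ^ (δ 0 0) * (S * T) * (T ^ (δ 0 0))⁻¹ := by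
        refine Matrix.SpecialLinearGroup.ext _ _ fun i j => ?_
        have hb : δ 0 1 = δ 0 0 * (1 - δ 0 0) - 1 := by
          rw [e10, ← h1, mul_one, show δ 1 1 = 1 - δ 0 0 by omega] at hdet
          omega
        fin_cases i <;> fin_cases j <;>
          simp [Matrix.SpecialLinearGroup.coe_mul, Matrix.SpecialLinearGroup.coe_inv, coe_T_zpow,
            coe_S, coe_T, Matrix.adjugate_fin_two, Matrix.mul_apply, Fin.sum_univ_two] <;>
          first | omega | (rw [hb]; ring)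
      rw [hback]
      conv_lhs => rw [hST]
      group
    · have hA : δ 0 0 + δ 1 1 = 1 := etr.trans htr
      rw [← e00] at hk
      rw [abs_le] at hk
      have hC : δ 1 0 = γ 1 0 := e10
      have hd : δ 1 1 = 1 - δ 0 0 := by omega
      rw [hd] at hdet
      have hb_neg : δ 0 1 < 0 := by
        by_contra hneg
        push Not at hneg
        nlinarith [sq_nonneg (2 * δ 0 0 - 1), mul_nonneg hneg (show 0 ≤ δ 1 0 by omega)]
      have hb_small : -δ 0 1 < γ 1 0 := by
        by_contra hbig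
        push Not at hbig
        have h4 : (2 * δ 0 0 - 1) ^ 2 ≤ γ 1 0 * γ 1 0 := by
          nlinarith [mul_nonneg (show 0 ≤ γ 1 0 - (2 * δ 0 0 - 1) by omega)
            (show 0 ≤ γ 1 0 + (2 * δ 0 0 - 1) by omega)]
        rw [hC] at hdet
        nlinarith [mul_le_mul_of_nonneg_right hbig (show 0 ≤ γ 1 0 by omega),
          mul_le_mul (show 2 ≤ γ 1 0 by omega) (show 2 ≤ γ 1 0 by omega) (by omega) (by omega)]
      set ε : SL(2, ℤ) := S * δ * S⁻¹ with hεdef
      have hentry' : ε 1 0 = -δ 0 1 ∧ ε 0 0 + ε 1 1 = δ 0 0 + δ 1 1 := by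
        simp [hεdef, Matrix.SpecialLinearGroup.coe_mul, Matrix.SpecialLinearGroup.coe_inv, coe_S,
          Matrix.adjugate_fin_two, Matrix.mul_apply, Fin.sum_univ_two,
        Matrix.vecMul, dotProduct]
        ring
      obtain ⟨g, hg⟩ := ih ε (hentry'.2.trans hA) (by omega) (by omega)
      refine ⟨(T ^ k)⁻¹ * S⁻¹ * g, ?_⟩
      rw [hback, show δ = S⁻¹ * ε * S by rw [hεdef]; group, hg]
      group

variable {M : ℕ}

/-- An element of trace one of `Γ₀(M)` fixes the line of `(1, -γ₀₀)` modulo `M` in a normal form. -/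
theorem conj_col (g : SL(2, ℤ)) (h : g * (S * T) * g⁻¹ ∈ Gamma0 M) :
    ((g 1 1 : ℤ) : ZMod M) = ((g 1 0 : ℤ) : ZMod M) * (((g * (S * T) * g⁻¹) 1 1 : ℤ) : ZMod M) := by
  set γ := g * (S * T) * g⁻¹ with hγ
  rw [Gamma0_mem] at h
  have hm : γ * g = g * (S * T) := by rw [hγ]; group
  have h10 := congrArg (fun m : SL(2, ℤ) => m 1 0) hm
  simp [Matrix.SpecialLinearGroup.coe_mul, coe_S, coe_T, Matrix.mul_apply, Fin.sum_univ_two]
    at h10
  have := congrArg (Int.cast : ℤ → ZMod M) h10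
  push_cast at this
  rw [h] at this
  linear_combination -(this : _)

/-- Two elements of trace one of `Γ₀(M)` with positive lower left entries and congruent diagonals
are conjugate in `Γ₀(M)`. -/
theorem exists_conj_gamma0 (γ γ' : Gamma0 M) (htr : (γ : SL(2, ℤ)) 0 0 + (γ : SL(2, ℤ)) 1 1 = 1)
    (htr' : (γ' : SL(2, ℤ)) 0 0 + (γ' : SL(2, ℤ)) 1 1 = 1) (hc : 0 < (γ : SL(2, ℤ)) 1 0)
    (hc' : 0 < (γ' : SL(2, ℤ)) 1 0)
    (hd : (((γ : SL(2, ℤ)) 1 1 : ℤ) : ZMod M) = (((γ' : SL(2, ℤ)) 1 1 : ℤ) : ZMod M)) :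
    ∃ h : Gamma0 M, γ' = h * γ * h⁻¹ := by
  obtain ⟨g, hg⟩ := exists_conj_ellU _ htr hc
  obtain ⟨g', hg'⟩ := exists_conj_ellU _ htr' hc'
  have h1 := conj_col g (hg ▸ γ.2)
  have h2 := conj_col g' (hg' ▸ γ'.2)
  rw [← hg] at h1
  rw [← hg', ← hd] at h2
  have hmem : g' * g⁻¹ ∈ Gamma0 M := by
    rw [Gamma0_mem]
    simp [Matrix.SpecialLinearGroup.coe_mul, Matrix.SpecialLinearGroup.coe_inv,
      Matrix.adjugate_fin_two, Matrix.mul_apply, Fin.sum_univ_two]
    linear_combination (((g' 1 0 : ℤ) : ZMod M)) * h1 - (((g 1 0 : ℤ) : ZMod M)) * h2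
  refine ⟨⟨_, hmem⟩, Subtype.ext ?_⟩
  show (γ' : SL(2, ℤ)) = g' * g⁻¹ * (γ : SL(2, ℤ)) * (g' * g⁻¹)⁻¹
  rw [hg, hg']
  group

theorem one_zero_ne_zero {γ : SL(2, ℤ)} (htr : γ 0 0 + γ 1 1 = 1) : γ 1 0 ≠ 0 := by
  intro h
  have hdet := γ.det_coe
  rw [Matrix.det_fin_two, h, mul_zero, sub_zero, show γ 1 1 = 1 - γ 0 0 by omega] at hdet
  nlinarith [sq_nonneg (2 * γ 0 0 - 1)]

variable {k : Type*} [Field k]

/-- Homomorphisms agree at elements of trace one in the same class. -/
theorem hom_eq_of_class (φ : Additive (Gamma0 M) →+ k) (γ γ' : Gamma0 M)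
    (htr : (γ : SL(2, ℤ)) 0 0 + (γ : SL(2, ℤ)) 1 1 = 1)
    (htr' : (γ' : SL(2, ℤ)) 0 0 + (γ' : SL(2, ℤ)) 1 1 = 1)
    (hsign : 0 < (γ : SL(2, ℤ)) 1 0 * (γ' : SL(2, ℤ)) 1 0)
    (hd : (((γ : SL(2, ℤ)) 1 1 : ℤ) : ZMod M) = (((γ' : SL(2, ℤ)) 1 1 : ℤ) : ZMod M)) :
    φ (Additive.ofMul γ') = φ (Additive.ofMul γ) := by
  rcases lt_or_gt_of_ne (one_zero_ne_zero htr) with hneg | hpos
  · have hneg' : (γ' : SL(2, ℤ)) 1 0 < 0 := by nlinarith
    obtain ⟨h, hh⟩ := exists_conj_gamma0 γ⁻¹ γ'⁻¹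
      (by simp [Matrix.SpecialLinearGroup.coe_inv, Matrix.adjugate_fin_two]; linarith)
      (by simp [Matrix.SpecialLinearGroup.coe_inv, Matrix.adjugate_fin_two]; linarith)
      (by simpa [Matrix.SpecialLinearGroup.coe_inv, Matrix.adjugate_fin_two] using hneg)
      (by simpa [Matrix.SpecialLinearGroup.coe_inv, Matrix.adjugate_fin_two] using hneg') (by
        simp [Matrix.SpecialLinearGroup.coe_inv, Matrix.adjugate_fin_two]
        have e : (γ : SL(2, ℤ)) 0 0 = 1 - (γ : SL(2, ℤ)) 1 1 := by omega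
        have e' : (γ' : SL(2, ℤ)) 0 0 = 1 - (γ' : SL(2, ℤ)) 1 1 := by omega
        rw [e, e']
        push_cast
        rw [hd])
    have := congrArg (fun x => φ (Additive.ofMul x)) hh
    simp only [ofMul_mul, ofMul_inv, map_add, map_neg] at this
    linear_combination -(this : _)
  · obtain ⟨h, hh⟩ := exists_conj_gamma0 γ γ' htr htr' hpos (by nlinarith) hd
    rw [hh, ofMul_mul, ofMul_mul, ofMul_inv, map_add, map_add, map_neg]
    ring

end Conjugacy

section Hecke

variable {k : Type*} [Field k] {M p L N : ℕ} [Fact p.Prime]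

/-- **The transfer at an elliptic element.** -/
theorem homOp_hecke_elliptic (h2 : (2 : k) ≠ 0) (hNM : N ∣ M) (hpL : p.Coprime L) (hpM : ¬ p ∣ M)
    (φ : Additive (Gamma0 M) →+ k) (γ : Gamma0 M)
    (hγ : ((γ : SL(2, ℤ))) 0 0 + ((γ : SL(2, ℤ))) 1 1 = 1) :
    (heckeCorr hNM hpL).homOp φ (Additive.ofMul γ) =
      ((p : k) + 1) * φ (Additive.ofMul γ) := by
  classical
  set D := heckeCorr (L := L) hNM hpL
  have hneg : ((γ : SL(2, ℤ)) * (γ : SL(2, ℤ)) * (γ : SL(2, ℤ))) = -1 := by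
    refine Matrix.SpecialLinearGroup.ext _ _ fun i j => ?_
    have hdet := (γ : SL(2, ℤ)).det_coe
    rw [Matrix.det_fin_two] at hdet
    have hd : (γ : SL(2, ℤ)) 1 1 = 1 - (γ : SL(2, ℤ)) 0 0 := by omega
    rw [hd] at hdet
    fin_cases i <;> fin_cases j <;>
      simp [Matrix.SpecialLinearGroup.coe_mul, Matrix.mul_apply, Fin.sum_univ_two, hd]
    · linear_combination (-((γ : SL(2, ℤ)) 0 0) - 1) * hdet
    · linear_combination (-((γ : SL(2, ℤ)) 0 1)) * hdet
    · linear_combination (-((γ : SL(2, ℤ)) 1 0)) * hdet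
    · linear_combination ((γ : SL(2, ℤ)) 0 0 - 2) * hdet
  set e : Gamma0 M := ⟨-1, neg_one_mem_gamma0 M⟩
  have hγ3 : γ * γ * γ = e := Subtype.ext hneg
  have hφe : φ (Additive.ofMul e) = 0 := by
    have h := congrArg φ (congrArg Additive.ofMul (show e * e = 1 from Subtype.ext (by simp [e])))
    rw [ofMul_mul, map_add, ofMul_one, map_zero, ← two_mul] at h
    exact (mul_eq_zero.mp h).resolve_left h2
  have hrep : ∀ i, D.rep i = hRep M p i := fun i => rfl
  have hpe : ∀ i, D.perm e i = i ∧ D.fac e i = e := fun i => by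
    have h1 := D.fac_spec e i
    have hI : D.rep i = ((((D.fac e i) * e⁻¹ : Gamma0 M) : SL(2, ℤ)) : Mat2) *
        D.rep (D.perm e i) := by
      have h2' := congrArg (fun m => -m) h1
      simp [e] at h2'
      rw [h2']
      simp [e]
    have hi : i = D.perm e i := Subtype.ext (repMat_unique hI)
    refine ⟨hi.symm, D.fac_unique ?_⟩
    rw [← hi]
    simp [e]
  have hperm3 : ∀ i, D.perm γ (D.perm γ (D.perm γ i)) = i := fun i => by
    have := (hpe i).1
    rw [← hγ3, D.perm_mul, D.perm_mul] at this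
    exact this
  have horb : ∀ i, φ (Additive.ofMul (D.fac γ i)) + φ (Additive.ofMul (D.fac γ (D.perm γ i))) +
      φ (Additive.ofMul (D.fac γ (D.perm γ (D.perm γ i)))) = 0 := fun i => by
    have h := congrArg φ (congrArg Additive.ofMul (hpe i).2)
    rw [← hγ3, D.fac_mul, D.fac_mul, D.perm_mul, hγ3] at h
    simpa [hφe] using h
  have hfix : ∀ i, D.perm γ i = i → φ (Additive.ofMul (D.fac γ i)) = φ (Additive.ofMul γ) := by
    intro i hi
    have h1 := D.fac_spec γ i
    rw [hi] at h1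
    set γ' := D.fac γ i
    have htr : ((γ' : SL(2, ℤ))) 0 0 + ((γ' : SL(2, ℤ))) 1 1 = 1 := by
      have h4 := congrArg Matrix.trace (congrArg (fun m => m * (D.rep i).adjugate) h1)
      rw [mul_assoc ((γ' : SL(2, ℤ)) : Mat2), Matrix.mul_adjugate, Matrix.trace_mul_cycle,
        Matrix.adjugate_mul, smul_mul_assoc, one_mul, mul_smul_comm, mul_one, Matrix.trace_smul,
        Matrix.trace_smul, Matrix.trace_fin_two, Matrix.trace_fin_two, hrep, det_hRep,
        smul_eq_mul, smul_eq_mul, hγ] at h4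
      have hp0 : (p : ℤ) ≠ 0 := Int.natCast_ne_zero.2 (Fact.out : p.Prime).ne_zero
      exact (mul_left_cancel₀ hp0 h4).symm
    have e10 := congrFun (congrFun h1 1) 0
    have e00 := congrFun (congrFun h1 0) 0
    simp only [Matrix.mul_apply, Fin.sum_univ_two, hrep, hRep_ten, mul_zero, zero_mul, zero_add,
      add_zero] at e10 e00
    have hdet : hRep M p i 0 0 * hRep M p i 1 1 = p := by
      have := det_hRep (M := M) i
      rw [Matrix.det_fin_two, hRep_ten, mul_zero, sub_zero] at this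
      exact this
    refine hom_eq_of_class φ γ γ' hγ htr ?_ ?_
    · have hp0 : (0 : ℤ) < p := Int.natCast_pos.2 (Fact.out : p.Prime).pos
      have hne := one_zero_ne_zero hγ
      have h5 : hRep M p i 0 0 * hRep M p i 0 0 *
          ((γ : SL(2, ℤ)) 1 0 * (γ' : SL(2, ℤ)) 1 0) = p * ((γ : SL(2, ℤ)) 1 0) ^ 2 := by
        rw [← hdet]
        linear_combination (-(hRep M p i 0 0) * ((γ : SL(2, ℤ)) 1 0)) * e10
      refine pos_of_mul_pos_right ?_ (mul_self_nonneg (hRep M p i 0 0))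
      rw [h5]
      positivity
    · have h6 := congrArg (Int.cast : ℤ → ZMod M) e00
      push_cast at h6
      rw [show (((γ : SL(2, ℤ)) 1 0 : ℤ) : ZMod M) = 0 from Gamma0_mem.mp γ.2] at h6
      obtain ⟨u, v, huv⟩ := isCoprime_hRep (M := M) i
      have h7 := congrArg (Int.cast : ℤ → ZMod M) huv
      push_cast at h7
      simp only [ZMod.natCast_self, mul_zero, add_zero] at h6 h7
      have e : ((γ : SL(2, ℤ)) 1 1 : ℤ) = 1 - (γ : SL(2, ℤ)) 0 0 := by omega
      have e' : ((γ' : SL(2, ℤ)) 1 1 : ℤ) = 1 - (γ' : SL(2, ℤ)) 0 0 := by omega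
      rw [e, e']
      push_cast
      linear_combination -(u : ZMod M) * h6 + ((((γ : SL(2, ℤ)) 0 0 : ℤ) : ZMod M) -
        (((γ' : SL(2, ℤ)) 0 0 : ℤ) : ZMod M)) * h7
  have h3γ : (3 : k) * φ (Additive.ofMul γ) = 0 := by
    have h := congrArg φ (congrArg Additive.ofMul hγ3)
    rw [ofMul_mul, ofMul_mul, map_add, map_add, hφe] at h
    linear_combination h
  have hsum := sum_eq_zero_of_orbits (D.perm γ) hperm3
    (fun i => φ (Additive.ofMul (D.fac γ i)) - φ (Additive.ofMul γ))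
    (fun i hi => sub_eq_zero.2 (hfix i hi))
    (fun i => by linear_combination horb i - h3γ)
  rw [Finset.sum_sub_distrib, Finset.sum_const, Finset.card_univ, card_hIdx hpM, sub_eq_zero,
    nsmul_eq_mul, Nat.cast_add, Nat.cast_one] at hsum
  rw [Corr.homOp_apply]
  exact hsum

end Hecke

end FermatAgent.LR
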