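import Fermat.Agent.LR.DualThree

/-!
# Lifting the image of `T_ℓ - (ℓ + 1)`

The homomorphisms of pairs of cusps are integral, and over a field of characteristic not two
`T_ℓ φ - (ℓ + 1) φ` is a combination of them, so it lifts along a surjection onto the field.
-/

set_option autoImplicit false

noncomputable section

open scoped MatrixGroups
open CongruenceSubgroup ModularGroup

namespace FermatAgent.LR

open FermatAgent.HM FermatAgent.HM.Dual

variable {Γ : Subgroup SL(2, ℤ)}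

/-- The integral count of a pair of cusps. -/
def flowHom (Γ : Subgroup SL(2, ℤ)) (u v : V2) : Additive Γ →+ ℤ where
  toFun γ := flow Γ u v 1 ((((Additive.toMul γ)⁻¹ : Γ) : SL(2, ℤ)) : Mat2)
  map_zero' := by simp [flow]
  map_add' := fun γ δ => by
    rw [toMul_add]
    set a := Additive.toMul γ
    set b := Additive.toMul δ
    rw [← flow_mul u v 1 (((b⁻¹ : Γ) : SL(2, ℤ)) : Mat2) a⁻¹, one_mul,
      flow_trans u v (by simp) (det_coe_pos _)
      (by rw [Matrix.det_mul]; exact mul_pos (det_coe_pos _) (det_coe_pos _)), mul_inv_rev]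
    simp

/-- Homomorphisms vanishing at the elliptic elements of order three lift through surjections. -/
theorem exists_lift_of_elliptic [Γ.FiniteIndex] (hneg : (-1 : SL(2, ℤ)) ∈ Γ) {O k : Type*}
    [CommRing O] [Field k] (r : O →+* k) (hr : Function.Surjective r) (h2 : (2 : k) ≠ 0)
    (φ : Additive Γ →+ k)
    (hell : ∀ (g : SL(2, ℤ)) (hg : g⁻¹ * (S * T) * g ∈ Γ), φ (Additive.ofMul ⟨_, hg⟩) = 0) :
    ∃ ψ : Additive Γ →+ O, r.toAddMonoidHom.comp ψ = φ := by
  have : Fintype (SL(2, ℤ) ⧸ Γ) := Fintype.ofFinite _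
  obtain ⟨w, hw⟩ := exists_eq_sum_cosetHom_of_elliptic hneg h2 φ hell
  choose W hW using fun x => hr (w x * (4 : k)⁻¹)
  refine ⟨∑ x, (AddMonoidHom.mulLeft (W x)).comp ((Int.castAddHom O).comp (flowHom Γ
    ((((x.out⁻¹ : SL(2, ℤ))) : Mat2).mulVec e₀) ((((x.out⁻¹ : SL(2, ℤ))) : Mat2).mulVec e₁))),
    AddMonoidHom.ext fun γ => ?_⟩
  rw [hw, AddMonoidHom.finsetSum_apply, AddMonoidHom.comp_apply, AddMonoidHom.finsetSum_apply,
    map_sum]
  refine Finset.sum_congr rfl fun x _ => ?_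
  show r (W x * ((flowHom Γ _ _ γ : ℤ) : O)) = w x * ((4 : k)⁻¹ * (flowHom Γ _ _ γ : k))
  rw [map_mul, hW, map_intCast, mul_assoc]

/-- **The image of `T_ℓ - (ℓ + 1)` lifts.** -/
theorem exists_lift_hecke {k : Type} [Field k] {M ℓ L N : ℕ} [NeZero M] [Fact ℓ.Prime] {O : Type}
    [CommRing O] (r : O →+* k) (hr : Function.Surjective r) (h2 : (2 : k) ≠ 0) (hNM : N ∣ M)
    (hℓL : ℓ.Coprime L) (hℓM : ¬ ℓ ∣ M) (φ : Additive (Gamma0 M) →+ k) :
    ∃ ψ : Additive (Gamma0 M) →+ O, ∀ x,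
      r (ψ x) = (heckeCorr hNM hℓL).homOp φ x - ((ℓ : k) + 1) * φ x := by
  obtain ⟨ψ, hψ⟩ := exists_lift_of_elliptic (neg_one_mem_gamma0 M) r hr h2
    ((heckeCorr hNM hℓL).homOp φ - ((ℓ : k) + 1) • φ) fun g hg => by
      simp only [AddMonoidHom.sub_apply, AddMonoidHom.smul_apply, smul_eq_mul,
        homOp_hecke_elliptic h2 hNM hℓL hℓM φ ⟨_, hg⟩ (trace_conj_ST g), sub_self]
  exact ⟨ψ, fun x => DFunLike.congr_fun hψ x⟩

end FermatAgent.LR

end
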