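import Fermat.Agent.LR.NewForm
import Fermat.Agent.LR.Primes
import Fermat.Prelude.Def_FLTPrelim_ModularRep
import Fermat.Prelude.Def_FreyPackage_LevelRaising

/-!
# Level raising

A congruent eigenform of level `N` with `a_q ≡ ± (q + 1)` gives one of level `N q` with
`a_q ^ 2 = 1`.
-/

set_option autoImplicit false

noncomputable section

open WeierstrassCurve WeierstrassCurve.Affine WeierstrassCurve.Affine.Point
open scoped CongruenceSubgroup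
open MvPolynomial

namespace FermatAgent.LR

open FermatAgent.HM

/-- A square root of `(q + 1)²` modulo a prime ideal is `± (q + 1)` there. -/
theorem exists_sign_of_sq_sub_mem {R : Type*} [CommRing R] {𝔪 : Ideal R} (h𝔪 : 𝔪.IsPrime) {a : R}
    {q : ℕ} (h : a ^ 2 - ((q : R) + 1) ^ 2 ∈ 𝔪) :
    ∃ ε : ℤ, ε * ε = 1 ∧ a - ((ε * ((q : ℤ) + 1) : ℤ) : R) ∈ 𝔪 := by
  have h' : (a - ((q : R) + 1)) * (a + ((q : R) + 1)) ∈ 𝔪 := by
    convert h using 1; ring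
  rcases h𝔪.mem_or_mem h' with h | h
  · exact ⟨1, one_mul 1, by push_cast; rw [one_mul]; exact h⟩
  · exact ⟨-1, by norm_num, by push_cast; rw [neg_one_mul, sub_neg_eq_add]; exact h⟩

/-- A prime outside the prime factors of `q ^ e - 1` does not divide it. -/
theorem natCast_pow_ne_one {q e l : ℕ} (hq : 1 < q) (he : e ≠ 0) (hl : l.Prime)
    (hlS : l ∉ (q ^ e - 1).primeFactors) : (q : ZMod l) ^ e ≠ 1 := fun h => by
  have h1 : 1 < q ^ e := Nat.one_lt_pow he hq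
  refine hlS (Nat.mem_primeFactors.mpr ⟨hl, ?_, by omega⟩)
  rw [← ZMod.natCast_eq_zero_iff, Nat.cast_sub h1.le, Nat.cast_pow, h, Nat.cast_one, sub_self]

/-- **Level raising.** Let `f` of level `N` be congruent to the irreducible `E[p]`, `p` odd, modulo
`𝔪`, and `q ∤ N p` a prime with `a_q² ≡ (q + 1)²`. Some eigenform of level `N q`, new at `q`, is
congruent to `E[p]` as well. -/
theorem exists_newAt_congruentEigenform
    (E : WeierstrassCurve ℚ) [E.IsElliptic] {W : WeierstrassCurve ℤ} (hW : W.IsIntegralModelOf E)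
    {p N q' : ℕ} (hp : p.Prime) (hp2 : p ≠ 2) (hN : 0 < N) (hq' : q'.Prime) (hq'N : ¬ q' ∣ N)
    (hq'p : q' ≠ p) (hirr : GaloisRepIsIrreducible (K := AlgebraicClosure ℚ) ℚ E p)
    (f : CuspForm (CongruenceSubgroup.Gamma0 N) 2) (𝔪 : Ideal (integralClosure ℤ ℂ))
    (hf : f.IsNormalizedEigenform) (hmax : 𝔪.IsMaximal) (hpm : (p : integralClosure ℤ ℂ) ∈ 𝔪)
    (hcong : ∀ ℓ : ℕ, ℓ.Prime → W.IsGoodPrimeFor ℓ → ¬ ℓ ∣ N → ℓ ≠ p →
      ∃ a : integralClosure ℤ ℂ, (a : ℂ) = ModularFormClass.qCoeff f ℓ ∧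
        a - ((W.apOfModel ℓ : ℤ) : integralClosure ℤ ℂ) ∈ 𝔪)
    (hLR : ∃ a : integralClosure ℤ ℂ, (a : ℂ) = ModularFormClass.qCoeff f q' ∧
      a ^ 2 - ((q' : integralClosure ℤ ℂ) + 1) ^ 2 ∈ 𝔪) :
    ∃ (g : CuspForm (CongruenceSubgroup.Gamma0 (N * q')) 2) (𝔪' : Ideal (integralClosure ℤ ℂ)),
      g.IsNormalizedEigenform ∧ 𝔪'.IsMaximal ∧ (p : integralClosure ℤ ℂ) ∈ 𝔪' ∧
      (∀ ℓ : ℕ, ℓ.Prime → W.IsGoodPrimeFor ℓ → ¬ ℓ ∣ N * q' → ℓ ≠ p →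
        ∃ a : integralClosure ℤ ℂ, (a : ℂ) = ModularFormClass.qCoeff g ℓ ∧
          a - ((W.apOfModel ℓ : ℤ) : integralClosure ℤ ℂ) ∈ 𝔪') ∧
      g.IsNewAt q' := by
  classical
  have := Fact.mk hp
  obtain ⟨D, rfl, rfl⟩ := ALData.exists_data hq' hq'N hN.ne'
  have hNq : D.L * D.q ≠ 0 := mul_ne_zero hN.ne' hq'.ne_zero
  have : NeZero (D.L * D.q) := ⟨hNq⟩
  let ι := {ℓ : Nat.Primes // W.IsGoodPrimeFor ℓ.1 ∧ ¬ ℓ.1 ∣ D.L * D.q ∧ ℓ.1 ≠ p}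
  let pr : ι → HPrime 1 := fun i => ⟨i.1, Nat.coprime_one_right _⟩
  have hqL : D.q.Coprime 1 := Nat.coprime_one_right _
  have hne : ∀ i, ((pr i).1.1 : ℕ) ≠ D.q := fun i h =>
    i.2.2.1 (by rw [show i.1.1 = D.q from h]; exact dvd_mul_left _ _)
  have hgood : ∀ i, ¬ ((pr i).1.1 : ℕ) ∣ D.L := fun i h => i.2.2.1 (h.mul_right _)
  let val : ι → ℤ := fun i => W.apOfModel i.1.1
  -- the primes
  obtain ⟨l₀, hl₀, hl₀S, hl₀1, hl₀g, hl₀p, hl₀a⟩ :=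
    exists_prime_one_mod_ne (E := E) hW hp hp2 hirr (D.L * D.q) (D.L * D.q).primeFactors
  let i₀ : ι := ⟨⟨l₀, hl₀⟩, hl₀g, fun h => hl₀S (Nat.mem_primeFactors.mpr ⟨hl₀, h, hNq⟩), hl₀p⟩
  obtain ⟨l₁, hl₁, hl₁S, hl₁g, hl₁p, hl₁a⟩ := exists_prime_sq_ne (E := E) hW hp hp2 hirr
    ((D.L * D.q).primeFactors ∪ (D.q ^ (4 * D.L ^ 2) - 1).primeFactors)
  rw [Finset.mem_union, not_or] at hl₁S
  let i₁ : ι :=
    ⟨⟨l₁, hl₁⟩, hl₁g, fun h => hl₁S.1 (Nat.mem_primeFactors.mpr ⟨hl₁, h, hNq⟩), hl₁p⟩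
  have hord : (D.q : ZMod l₁) ^ (4 * D.L ^ 2) ≠ 1 :=
    natCast_pow_ne_one hq'.one_lt (mul_ne_zero four_ne_zero (pow_ne_zero 2 hN.ne')) hl₁ hl₁S.2
  -- the eigenclass at the lower level
  obtain ⟨x, hx0, hxe⟩ := exists_eigenclass (p := p) (M := D.L) (D.extPr hqL pr) hf hmax hpm
  obtain ⟨a, ha, hamem⟩ := hLR
  obtain ⟨ε, hε2, hεa⟩ := exists_sign_of_sq_sub_mem hmax.isPrime hamem
  have hx : ∀ i, (MvPolynomial.X (some i) : MvPolynomial (Option ι) (ZMod p)) •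
      red PadicInt.toZMod (D.extPr hqL pr) x =
        ((val i : ℤ) : ZMod p) • red PadicInt.toZMod (D.extPr hqL pr) x := fun i =>
    hxe (some i) (val i) (hgood i) (hcong _ i.1.2 i.2.1 (hgood i) i.2.2.2)
  have hxq := hxe none (ε * ((D.q : ℤ) + 1)) D.not_dvd ⟨a, ha, hεa⟩
  have hπ : IsLeftRegular (p : ℤ_[p]) :=
    (IsRegular.of_ne_zero (Nat.cast_ne_zero.mpr hp.ne_zero)).left
  have h2 : (2 : ZMod p) ≠ 0 := fun h => hp2 ((Nat.prime_dvd_prime_iff_eq hp Nat.prime_two).mp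
    ((ZMod.natCast_eq_zero_iff 2 p).mp (by exact_mod_cast h)))
  have he : (PadicInt.toZMod (ε : ℤ_[p])) * (PadicInt.toZMod (ε : ℤ_[p])) = (1 : ZMod p) := by
    rw [map_intCast, ← Int.cast_mul, hε2, Int.cast_one]
  have hi₀L : (((pr i₀).1.1 : ℕ) : ZMod D.L) = 1 := by
    have h := congrArg (ZMod.castHom (dvd_mul_right D.L D.q) (ZMod D.L)) hl₀1
    rwa [map_natCast, map_one] at h
  obtain ⟨z, hz1, hz2, hz⟩ := exists_class_killed (PadicInt.toZMod (p := p)) (D := D) (hqL := hqL)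
    (pr := pr) hπ (fun _ h => toZMod_eq_zero h) (by rw [map_natCast, ZMod.natCast_self])
    (ZMod.ringHom_surjective _) h2 hne hgood (fun i => ((val i : ℤ) : ZMod p)) i₀ hi₀L hl₀a
    i₁ hord hl₁a
    x hx0 hx (ε : ℤ_[p]) he (hxq.trans (by rw [map_intCast]; push_cast; rfl))
  obtain ⟨g, 𝔪', hg, hmax', hp', hgq, hgc⟩ :=
    exists_newAt_of_class (D := D) (hqL := hqL) (pr := pr) val i₀ hl₀1 hl₀a z hz1 hz2 hz
  exact ⟨g, 𝔪', hg, hmax', hp', fun ℓ hℓ hℓg hℓN hℓp => hgc ⟨⟨ℓ, hℓ⟩, hℓg, hℓN, hℓp⟩, hgq⟩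

end FermatAgent.LR

end
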