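import Fermat.Agent.LR.Reduce
import Fermat.Agent.LR.InjPair
import Fermat.Agent.LR.Lift
import Fermat.Agent.LR.Algebra
import Fermat.Agent.HM.Dual.Ihara

/-!
# A class killed by both traces

If an eigensystem modulo `p` of level `L` has `T_q = ± (q + 1)` there, some class of level `L q`
killed by both traces is supported at the eigensystem.
-/

set_option autoImplicit false

noncomputable section

open scoped MatrixGroups
open CongruenceSubgroup MvPolynomial ModularCurve.Period

namespace FermatAgent.LR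

open FermatAgent.HM FermatAgent.BAD.Ihara

variable {O k : Type} [CommRing O] [IsNoetherianRing O] [Field k] [Finite k] (r : O →+* k)
  {L : ℕ} {D : ALData} {hqL : D.q.Coprime L} {ι : Type} {pr : ι → HPrime L}

/-- The prime of an eigensystem modulo the kernel of `r`. -/
def redIdeal (c : ι → k) : Ideal (MvPolynomial ι O) := (eigIdeal c).comap (MvPolynomial.map r)

section

omit [IsNoetherianRing O] [Finite k]

lemma mem_redIdeal {c : ι → k} {t : MvPolynomial ι O} :
    t ∈ redIdeal r c ↔ aeval c (MvPolynomial.map r t) = 0 := Iff.rfl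

lemma red_rename (t : MvPolynomial ι O) {M : ℕ} (z : TrivH1 O M (D.extPr hqL pr) O) :
    red r (D.extPr hqL pr) (rename some t • z) =
      rename some (MvPolynomial.map r t) • red r (D.extPr hqL pr) z := by
  rw [red_poly, map_rename]

/-- A class vanishing modulo `π` is a multiple of `π`. -/
lemma exists_eq_smul {π : O} (hπ : IsLeftRegular π) (hker : ∀ a, r a = 0 → π ∣ a) {M : ℕ}
    {κ : Type} {pr' : κ → HPrime L} (z : TrivH1 O M pr' O) (h : red r pr' z = 0) :
    ∃ w : TrivH1 O M pr' O, π • w = z := by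
  choose g hg using fun γ => hker _ ((red_eq_zero_iff r z).mp h γ)
  let φ : Additive (Gamma0 M) →+ O := AddMonoidHom.mk' g fun a b => hπ (by
    show π * g (a + b) = π * (g a + g b)
    rw [mul_add, ← hg, ← hg, ← hg, map_add])
  refine ⟨(trivHom O M pr' O).symm φ, (trivHom O M pr' O).injective (AddMonoidHom.ext fun γ => ?_)⟩
  rw [map_smul, LinearEquiv.apply_symm_apply, AddMonoidHom.smul_apply, smul_eq_mul, hg]
  rfl

end

section

omit [IsNoetherianRing O] [Finite k] [Field k]

/-- A linear map commuting with the operators commutes with their polynomials. -/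
private lemma map_rename_smul (f : HighR O D hqL pr →ₗ[O] LowR O D hqL pr)
    (hf : ∀ i z, f ((MvPolynomial.X (some i) : MvPolynomial (Option ι) O) • z) =
      (MvPolynomial.X (some i) : MvPolynomial (Option ι) O) • f z)
    (t : MvPolynomial ι O) (z : HighR O D hqL pr) :
    f (rename some t • z) = rename some t • f z := by
  induction t using MvPolynomial.induction_on generalizing z with
  | C a => rw [rename_C, C_smul_eq, C_smul_eq, map_smul]
  | add s t hs ht => rw [map_add, add_smul, map_add, hs, ht, add_smul]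
  | mul_X s i hs => rw [map_mul, rename_X, mul_smul, hs, hf, mul_smul]

end

omit [IsNoetherianRing O] [Finite k] in
/-- A class modulo `π` of level `L q`, multiplied by `T_ℓ - ℓ - 1`, lifts. -/
private lemma exists_red_eq (hr : Function.Surjective r) (h2 : (2 : k) ≠ 0) (i : ι)
    (hiN : ¬ ((pr i).1.1 : ℕ) ∣ D.N) (w : HighR k D hqL pr) :
    ∃ v : HighR O D hqL pr, red r (D.extPr hqL pr) v =
      rename some (MvPolynomial.X i - C (((pr i).1.1 : ℕ) + 1 : k) : MvPolynomial ι k) • w := by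
  have : Fact (pr i).1.1.Prime := ⟨(pr i).1.2⟩
  obtain ⟨ψ, hψ⟩ := exists_lift_hecke (O := O) r hr h2 (one_dvd D.N) (pr i).2 hiN
    (trivHom k D.N (D.extPr hqL pr) k w)
  refine ⟨(trivHom O D.N (D.extPr hqL pr) O).symm ψ,
    (trivHom k D.N (D.extPr hqL pr) k).injective (AddMonoidHom.ext fun γ => ?_)⟩
  rw [trivHom_red, map_sub, rename_X, rename_C, sub_smul, C_smul_eq, map_sub,
    trivHom_X (R := k) (M := D.N) (X := k) (D.extPr hqL pr) (some i) w, map_smul]
  simp only [LinearEquiv.apply_symm_apply, AddMonoidHom.comp_apply,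
    RingHom.toAddMonoidHom_eq_coe, AddMonoidHom.coe_coe, hψ]
  rfl

omit [IsNoetherianRing O] in
/-- Modulo `π` both traces are jointly surjective at the eigensystem. -/
private lemma exists_traces_eq {π : O} (hπ : IsLeftRegular π) (hker : ∀ a, r a = 0 → π ∣ a)
    (hr : Function.Surjective r) (h2 : (2 : k) ≠ 0) (hne : ∀ i, ((pr i).1.1 : ℕ) ≠ D.q)
    (hgood : ∀ i, ¬ ((pr i).1.1 : ℕ) ∣ D.L) (c : ι → k) (i₀ : ι)
    (hi₀ : (((pr i₀).1.1 : ℕ) : ZMod D.L) = 1) (hne₀ : c i₀ ≠ ((pr i₀).1.1 : ℕ) + 1)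
    (i₁ : ι) (hne₁ : c i₁ ^ 2 ≠ (((pr i₁).1.1 : ℕ) + 1 : k) ^ 2)
    (hinj : ∀ w : LowR k D hqL pr × LowR k D hqL pr, pairDeg D hqL pr w = 0 →
      ∃ s ∉ eigIdeal c, rename some s • w = 0) (a b : LowR O D hqL pr) :
    ∃ t ∉ redIdeal r c, ∃ (u : HighR O D hqL pr) (z₁ z₂ : LowR O D hqL pr),
      D.corMod (1 : (ZMod 1)ˣ →* O) (one_dvd D.L) hqL pr u = rename some t • a - π • z₁ ∧
      D.cwMod (1 : (ZMod 1)ˣ →* O) (one_dvd D.L) hqL pr u = rename some t • b - π • z₂ := by
  set redL := red r (M := D.L) (D.extPr hqL pr)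
  obtain ⟨s, hs, w, hw1, hw2⟩ :=
    HM.Dual.dual_pairDeg h2 hne hgood c i₀ hi₀ hne₀ hinj (redL a, redL b)
  obtain ⟨u, hu⟩ := exists_red_eq r hr h2 i₁ (fun h => by
    rcases ((pr i₁).1.2.dvd_mul).mp h with h' | h'
    · exact hgood i₁ h'
    · exact hne i₁ ((Nat.prime_dvd_prime_iff_eq (pr i₁).1.2 D.prime).mp h')) w
  obtain ⟨sO, hsO⟩ := MvPolynomial.map_surjective r hr s
  set tk : MvPolynomial ι k := MvPolynomial.X i₁ - C (((pr i₁).1.1 : ℕ) + 1 : k)
  set tO : MvPolynomial ι O := MvPolynomial.X i₁ - C (((pr i₁).1.1 : ℕ) + 1 : O)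
  have htO : MvPolynomial.map r tO = tk := by simp [tO, tk]
  refine ⟨tO * sO, fun hm => ?_, u, ?_⟩
  · have : (redIdeal r c).IsPrime := Ideal.IsPrime.comap _
    rcases Ideal.IsPrime.mem_or_mem inferInstance hm with h | h
    · rw [mem_redIdeal, htO] at h
      simp [tk, sub_eq_zero] at h
      exact hne₁ (by rw [h])
    · rw [mem_redIdeal, hsO] at h
      exact hs h
  have hred : ∀ (v v' : LowR O D hqL pr), redL v' = rename some tk • rename some s • redL v →
      ∃ z, v' = rename some (tO * sO) • v - π • z := fun v v' hv => by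
    obtain ⟨z, hz⟩ := exists_eq_smul r hπ hker (rename some (tO * sO) • v - v') (by
      change redL _ = 0
      rw [map_sub, show redL (rename some (tO * sO) • v) = _ from red_rename r (tO * sO) v,
        map_mul, map_mul, mul_smul, htO, hsO, hv, sub_self])
    exact ⟨z, by rw [hz, sub_sub_cancel]⟩
  obtain ⟨z₁, hz₁⟩ := hred a (D.corMod (1 : (ZMod 1)ˣ →* O) (one_dvd D.L) hqL pr u) (by
    rw [show redL (D.corMod _ _ _ _ u) = _ from red_cor r u, hu, map_sub, rename_X, rename_C,
      sub_smul, C_smul_eq, map_sub, D.corMod_X_some hne, map_smul, hw1, sub_smul, C_smul_eq])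
  obtain ⟨z₂, hz₂⟩ := hred b (D.cwMod (1 : (ZMod 1)ˣ →* O) (one_dvd D.L) hqL pr u) (by
    rw [show redL (D.cwMod _ _ _ _ u) = _ from red_cw r u, hu, map_sub, rename_X, rename_C,
      sub_smul, C_smul_eq, map_sub, D.cwMod_X_some hne, map_smul, hw2, sub_smul, C_smul_eq])
  exact ⟨z₁, z₂, hz₁, hz₂⟩

omit [Finite k] in
/-- The image of an eigenvector under the degeneracy maps is an eigenvector. -/
private lemma X_smul_pairDeg (hne : ∀ i, ((pr i).1.1 : ℕ) ≠ D.q) (c : ι → k) (a : k)
    {x : LowR k D hqL pr}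
    (hx : ∀ i, (MvPolynomial.X (some i) : MvPolynomial (Option ι) k) • x = c i • x) (i : ι) :
    (MvPolynomial.X (some i) : MvPolynomial (Option ι) k) • pairDeg D hqL pr (x, -(a • x)) =
      c i • pairDeg D hqL pr (x, -(a • x)) := by
  simp only [pairDeg]
  have : Fact (pr i).1.1.Prime := ⟨(pr i).1.2⟩
  rw [smul_add, smul_add, ← D.resMod_X_some hne, hx, map_smul]
  congr 1
  rw [ALData.degMod, LinearMap.comp_apply, ← map_smul (D.wMod _ _ _ _),
    ← map_smul (D.resMod _ _ _ _)]
  have hcom : ∀ u, (MvPolynomial.X (some i) : MvPolynomial (Option ι) k) •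
      D.wMod (1 : (ZMod 1)ˣ →* k) (one_dvd D.L) hqL pr u =
      D.wMod (1 : (ZMod 1)ˣ →* k) (one_dvd D.L) hqL pr
        ((MvPolynomial.X (some i) : MvPolynomial (Option ι) k) • u) := fun u => by
    simp only [mv_smul_def, heckeHom_X]
    exact D.wOp_comm (X := k) (1 : (ZMod 1)ˣ →* k) (one_dvd D.L) hqL (hne i) (pr i).2 _
  rw [hcom, ← D.resMod_X_some hne, smul_neg, smul_neg, smul_comm _ a, hx, smul_comm a]

omit [Finite k] in
/-- For an eigenvector with `U_q = e (q + 1)` the traces of `res x - deg (e x)` vanish. -/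
private lemma traces_pairDeg_eq_zero {e : k} (he : e * e = 1) {x : LowR k D hqL pr}
    (hxq : (ALData.Xq k ι) • x = (e * ((D.q : k) + 1)) • x) :
    D.corMod (1 : (ZMod 1)ˣ →* k) (one_dvd D.L) hqL pr (pairDeg D hqL pr (x, -(e • x))) = 0 ∧
      D.cwMod (1 : (ZMod 1)ˣ →* k) (one_dvd D.L) hqL pr (pairDeg D hqL pr (x, -(e • x))) = 0 := by
  obtain ⟨h1, h2⟩ := cor_res_add_deg (R := k) (D := D) (hqL := hqL) (pr := pr) x (-(e • x))
  constructor
  · refine h1.trans ?_
    rw [smul_neg, smul_comm, hxq, smul_smul, ← sub_eq_add_neg, ← sub_smul,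
      show (D.q : k) + 1 - e * (e * ((D.q : k) + 1)) = 0 by
        linear_combination -((D.q : k) + 1) * he, zero_smul]
  · refine h2.trans ?_
    rw [hxq, smul_neg, smul_smul, ← sub_eq_add_neg, ← sub_smul,
      show e * ((D.q : k) + 1) - ((D.q : k) + 1) * e = 0 by ring, zero_smul]

/-- **Level raising for Hecke classes.** -/
theorem exists_class_killed {π : O} (hπ : IsLeftRegular π) (hker : ∀ a, r a = 0 → π ∣ a)
    (hrπ : r π = 0) (hr : Function.Surjective r) (h2 : (2 : k) ≠ 0)
    (hne : ∀ i, ((pr i).1.1 : ℕ) ≠ D.q) (hgood : ∀ i, ¬ ((pr i).1.1 : ℕ) ∣ D.L) (c : ι → k)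
    (i₀ : ι) (hi₀ : (((pr i₀).1.1 : ℕ) : ZMod D.L) = 1) (hne₀ : c i₀ ≠ ((pr i₀).1.1 : ℕ) + 1)
    (i₁ : ι) (hord : (D.q : ZMod (pr i₁).1.1) ^ (4 * D.L ^ 2) ≠ 1)
    (hne₁ : c i₁ ^ 2 ≠ (((pr i₁).1.1 : ℕ) + 1 : k) ^ 2)
    (x : LowR O D hqL pr) (hx0 : red r (D.extPr hqL pr) x ≠ 0)
    (hx : ∀ i, (MvPolynomial.X (some i) : MvPolynomial (Option ι) k) • red r (D.extPr hqL pr) x =
      c i • red r (D.extPr hqL pr) x)
    (e : O) (he : r e * r e = 1)
    (hxq : (ALData.Xq k ι) • red r (D.extPr hqL pr) x =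
      (r e * ((D.q : k) + 1)) • red r (D.extPr hqL pr) x) :
    ∃ z : HighR O D hqL pr,
      D.corMod (1 : (ZMod 1)ˣ →* O) (one_dvd D.L) hqL pr z = 0 ∧
      D.cwMod (1 : (ZMod 1)ˣ →* O) (one_dvd D.L) hqL pr z = 0 ∧
      ∀ t ∉ redIdeal r c, rename some t • z ≠ 0 := by
  classical
  have hinj := fun w hw => pairDeg_killed (D := D) (hqL := hqL) (pr := pr) hne c i₀ hi₀ hne₀ i₁
    (hgood i₁) hord hne₁ w hw
  set redL := red r (M := D.L) (D.extPr hqL pr)
  set redH := red r (M := D.N) (D.extPr hqL pr)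
  let : Module (MvPolynomial ι O) (LowR O D hqL pr) :=
    Module.compHom _ (rename (some : ι → Option ι) : MvPolynomial ι O →ₐ[O] _).toRingHom
  let : Module (MvPolynomial ι O) (HighR O D hqL pr) :=
    Module.compHom _ (rename (some : ι → Option ι) : MvPolynomial ι O →ₐ[O] _).toRingHom
  have : IsScalarTower O (MvPolynomial ι O) (LowR O D hqL pr) := ⟨fun a t z => by
    show rename some (a • t) • z = a • (rename some t • z)
    rw [map_smul, smul_assoc]⟩
  have : Module.Finite O (LowR O D hqL pr) :=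
    H1.module_finite (resRep (actsIn_gamma0 (L := L) (one_dvd D.L))
      (thetaRep (1 : (ZMod 1)ˣ →* O) O))
  have : Module.Finite (MvPolynomial ι O) (LowR O D hqL pr) :=
    Module.Finite.of_restrictScalars_finite O _ _
  have hlin := map_rename_smul (D := D) (hqL := hqL) (pr := pr) (O := O)
  let d : HighR O D hqL pr →ₗ[MvPolynomial ι O] LowR O D hqL pr × LowR O D hqL pr :=
    { toFun := fun z => (D.corMod (1 : (ZMod 1)ˣ →* O) (one_dvd D.L) hqL pr z,
        D.cwMod (1 : (ZMod 1)ˣ →* O) (one_dvd D.L) hqL pr z)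
      map_add' := fun z w => by simp
      map_smul' := fun t z => Prod.ext (hlin _ (D.corMod_X_some hne) t z)
        (hlin _ (D.cwMod_X_some hne) t z) }
  have hC : ∀ (a : O) (z : LowR O D hqL pr), (C a : MvPolynomial ι O) • z = a • z := fun a z => by
    show rename some (C a : MvPolynomial ι O) • z = _
    rw [rename_C, C_smul_eq]
  have : (redIdeal r c).IsPrime := Ideal.IsPrime.comap _
  have hπm : (C π : MvPolynomial ι O) ∈ redIdeal r c := by
    rw [mem_redIdeal, map_C, hrπ, map_zero, map_zero]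
  -- the traces are surjective at the eigensystem
  obtain ⟨S, hS, hSsurj⟩ : ∃ S ∉ redIdeal r c,
      ∀ w : LowR O D hqL pr × LowR O D hqL pr, S • w ∈ LinearMap.range d := by
    obtain ⟨S, hS, hSQ⟩ := exists_notMem_smul_eq_zero
      (Q := (LowR O D hqL pr × LowR O D hqL pr) ⧸ LinearMap.range d) (redIdeal r c)
      (I := Ideal.span {C π}) ((Ideal.span_singleton_le_iff_mem _).mpr hπm) fun y => by
      obtain ⟨⟨a, b⟩, rfl⟩ := Submodule.Quotient.mk_surjective _ y
      obtain ⟨t, ht, u, z₁, z₂, h₁, h₂⟩ := exists_traces_eq r hπ hker hr h2 hne hgood c i₀ hi₀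
        hne₀ i₁ hne₁ hinj a b
      refine ⟨t, ht, ?_⟩
      have : (Submodule.Quotient.mk (t • (a, b)) :
          (LowR O D hqL pr × LowR O D hqL pr) ⧸ LinearMap.range d) =
            (C π : MvPolynomial ι O) • Submodule.Quotient.mk (z₁, z₂) := by
        rw [← Submodule.Quotient.mk_smul, Submodule.Quotient.eq]
        refine ⟨u, Prod.ext ?_ ?_⟩
        · show (d u).1 = rename some t • a - (C π : MvPolynomial ι O) • z₁
          rw [hC]; exact h₁
        · show (d u).2 = rename some t • b - (C π : MvPolynomial ι O) • z₂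
          rw [hC]; exact h₂
      rw [← Submodule.Quotient.mk_smul, this]
      exact Submodule.smul_mem_smul (Ideal.mem_span_singleton_self _) Submodule.mem_top
    exact ⟨S, hS, fun w => (Submodule.Quotient.mk_eq_zero _).mp
      ((Submodule.Quotient.mk_smul _ _ _).trans (hSQ (Submodule.Quotient.mk w)))⟩
  -- the class in the image of the degeneracy maps
  set y := D.resMod (1 : (ZMod 1)ˣ →* O) (one_dvd D.L) hqL pr x +
    D.degMod (1 : (ZMod 1)ˣ →* O) (one_dvd D.L) hqL pr (-(e • x)) with hy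
  have hry : redH y = pairDeg D hqL pr (redL x, -(r e • redL x)) := by
    rw [hy, map_add, show redH (D.resMod _ _ _ _ x) = _ from red_res r x,
      show redH (D.degMod _ _ _ _ (-(e • x))) = _ from red_deg r _, map_neg, red_smul]
    rfl
  have hy0 : redH y ≠ 0 := fun h => by
    obtain ⟨s, hs, hsx⟩ := hinj _ (hry.symm.trans h)
    have h1 : rename some s • redL x = 0 := congrArg Prod.fst hsx
    rw [HM.Dual.rename_smul_of_eigen some c _ hx] at h1
    exact hx0 ((smul_eq_zero.mp h1).resolve_left hs)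
  obtain ⟨h1, h2'⟩ := traces_pairDeg_eq_zero he hxq
  have hd1 : redL (D.corMod (1 : (ZMod 1)ˣ →* O) (one_dvd D.L) hqL pr y) = 0 := by
    rw [show redL (D.corMod _ _ _ _ y) = _ from red_cor r y,
      show red r (D.extPr hqL pr) y = _ from hry]
    exact h1
  have hd2 : redL (D.cwMod (1 : (ZMod 1)ˣ →* O) (one_dvd D.L) hqL pr y) = 0 := by
    rw [show redL (D.cwMod _ _ _ _ y) = _ from red_cw r y,
      show red r (D.extPr hqL pr) y = _ from hry]
    exact h2'
  obtain ⟨w1, hw1⟩ := exists_eq_smul r hπ hker _ hd1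
  obtain ⟨w2, hw2⟩ := exists_eq_smul r hπ hker _ hd2
  obtain ⟨v, hv⟩ := hSsurj (w1, w2)
  refine ⟨rename some S • y - π • v, ?_, ?_, fun t ht h => ?_⟩
  · rw [map_sub, hlin _ (D.corMod_X_some hne), map_smul, ← hw1,
      show D.corMod _ _ _ _ v = _ from congrArg Prod.fst hv, smul_comm]
    exact sub_self _
  · rw [map_sub, hlin _ (D.cwMod_X_some hne), map_smul, ← hw2,
      show D.cwMod _ _ _ _ v = _ from congrArg Prod.snd hv, smul_comm]
    exact sub_self _
  · have h3 := congrArg redH h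
    rw [map_zero, show redH (rename some t • (rename some S • y - π • v)) = _ from red_rename r t _,
      map_sub, red_rename, red_smul, hrπ, zero_smul, sub_zero, ← mul_smul, ← map_mul, ← map_mul]
      at h3
    have hey := fun i => hry ▸ X_smul_pairDeg hne c (r e) hx i
    rw [show rename some (MvPolynomial.map r (t * S)) • redH y = _ from
      HM.Dual.rename_smul_of_eigen some c (redH y) hey _] at h3
    exact (Ideal.IsPrime.mem_or_mem inferInstance
      (mem_redIdeal r |>.mpr ((smul_eq_zero.mp h3).resolve_right hy0))).elim ht hS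

end FermatAgent.LR

end
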