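import Fermat.Agent.LR.NewClass
import Fermat.Agent.LR.Eigen
import Fermat.Agent.MF.Mult.Full
import Fermat.Agent.Assembly.Vocabulary

/-!
# An eigenform from a class killed by both traces

A class killed by both traces is, after splitting by `U_q = ± 1`, supported at the eigensystem of
an eigenform with `a_q = ± 1`.
-/

set_option autoImplicit false

noncomputable section

open scoped MatrixGroups
open CongruenceSubgroup MvPolynomial ModularCurve.Period

namespace FermatAgent.LR

open FermatAgent.HM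
open Assembly (ZC)

variable {p : ℕ} [hp : Fact p.Prime]

/-- One of the two projections of a class to the eigenspaces of an involution keeps its support. -/
private theorem smul_add_ne_or_sub_ne {S A W : Type*} [CommRing S] [CommRing A] [AddCommGroup W]
    [Module A W] (f : S →+* A) (Q : Ideal S) [Q.IsPrime] (u : A) {z : W}
    (h2 : ∀ w : W, w + w = 0 → w = 0) (hz : ∀ t ∉ Q, f t • z ≠ 0) :
    (∀ t ∉ Q, f t • (z + u • z) ≠ 0) ∨ ∀ t ∉ Q, f t • (z - u • z) ≠ 0 := by
  by_contra h
  push Not at h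
  obtain ⟨⟨s, hs, hsz⟩, t, ht, h'⟩ := h
  refine hz (t * s) (fun hm => ((inferInstance : Q.IsPrime).mem_or_mem hm).elim ht hs) (h2 _ ?_)
  have e1 : f (t * s) • (z + u • z) = 0 := by rw [map_mul, mul_smul, hsz, smul_zero]
  have e2 : f (t * s) • (z - u • z) = 0 := by
    rw [map_mul, mul_comm, mul_smul, h', smul_zero]
  rw [← smul_add, show z + z = (z + u • z) + (z - u • z) by abel, smul_add, e1, e2, add_zero]

/-- Polynomials act on an eigenvector of the variable `none` through its eigenvalue. -/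
private theorem rename_aeval_smul {A ι W : Type*} [CommRing A] [AddCommGroup W]
    [Module (MvPolynomial (Option ι) A) W] {σ : A} {w : W}
    (hw : (MvPolynomial.X none : MvPolynomial (Option ι) A) • w =
      (C σ : MvPolynomial (Option ι) A) • w) (P : MvPolynomial (Option ι) A) :
    rename some (aeval (fun o => o.elim (C σ) MvPolynomial.X) P : MvPolynomial ι A) • w =
      P • w := by
  induction P using MvPolynomial.induction_on with
  | C a => simp
  | add P P' h h' => rw [map_add, map_add, add_smul, add_smul, h, h']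
  | mul_X P o h =>
    rw [map_mul, map_mul, mul_smul, mul_smul, aeval_X]
    rcases o with _ | i
    · rw [Option.elim_none, rename_C, hw, smul_comm, h, smul_comm]
    · rw [Option.elim_some, rename_X, smul_comm, h, smul_comm]

/-- A domain mapping to `ZMod p` in which `p` is not zero has characteristic zero. -/
private theorem charZero_of_hom_zmod {R : Type*} [CommRing R] [IsDomain R] (χ : R →+* ZMod p)
    (hpR : (p : R) ≠ 0) : CharZero R := charZero_of_inj_zero fun n hn => by
  by_contra h0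
  obtain ⟨e, m, hm', rfl⟩ := Nat.exists_eq_pow_mul_and_not_dvd h0 p hp.out.ne_one
  rw [Nat.cast_mul, Nat.cast_pow, mul_eq_zero] at hn
  rcases hn with h | h
  · exact hpR (pow_eq_zero_iff'.mp h).1
  · have h' := congrArg χ h
    rw [map_natCast, map_zero, ZMod.natCast_eq_zero_iff] at h'
    exact hm' h'

/-- Above the annihilator of a supported vector in a `p`-torsion free module there is a prime
below the support prime avoiding `p`. -/
private theorem exists_prime_above_annihilator {S A W : Type*} [CommRing S]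
    [CommRing A] [AddCommGroup W] [Module A W] (f : S →+* A) (Q : Ideal S) [Q.IsPrime] {w : W}
    (hw : ∀ t ∉ Q, f t • w ≠ 0) (π : S) (hπ : ∀ v : W, f π • v = 0 → v = 0) :
    ∃ Y : Ideal S, Y.IsPrime ∧ (∀ t, f t • w = 0 → t ∈ Y) ∧ Y ≤ Q ∧ π ∉ Y := by
  obtain ⟨Y, hY, hIY, hYQ, hπY⟩ :=
    exists_prime_le_notMem ((Ideal.torsionOf A W w).comap f) Q
      (fun t ht => by_contra fun h => hw t h ht) π
      (fun t ht => hπ _ (by
        change f π • f t • w = 0
        rw [← mul_smul, ← map_mul]; exact ht))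
  exact ⟨Y, hY, fun t ht => hIY ht, hYQ, hπY⟩

/-- What kills the localisation at the pulled back prime lies over a prime above the annihilator. -/
private theorem mem_of_kills_loc {A B W : Type*} [CommRing A] [CommRing B] [AddCommGroup W]
    [Module A W] (ev : A →+* B) (f : B → A) {Y Q : Ideal B} [Y.IsPrime] [Q.IsPrime] (hYQ : Y ≤ Q)
    {w : W} (hev : ∀ P, f (ev P) • w = P • w) (hY : ∀ t, f t • w = 0 → t ∈ Y) {P : A}
    (hP : ∀ y : LocalizedModule (Q.comap ev).primeCompl W, P • y = 0) : ev P ∈ Y := by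
  have h1 := hP (LocalizedModule.mk w 1)
  rw [LocalizedModule.smul'_mk, ← LocalizedModule.zero_mk (1 : (Q.comap ev).primeCompl),
    LocalizedModule.mk_eq] at h1
  obtain ⟨⟨s, hs⟩, hs0⟩ := h1
  simp only [Submonoid.smul_def, one_smul, smul_zero] at hs0
  rw [← mul_smul, ← hev] at hs0
  have h2 := hY _ hs0
  rw [map_mul] at h2
  exact ((inferInstance : Y.IsPrime).mem_or_mem h2).resolve_left fun h => hs (hYQ h)

/-- A point of characteristic zero reducing to `χ` gives a place over `p` of algebraic integers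
congruent to the values of `χ`. -/
private theorem exists_residual_place {R₀ K : Type} [CommRing R₀] [Field K]
    [CharZero K] (κ : R₀ →+* K) (hκ : Function.Injective κ) (τ : integralClosure ℤ K →+* ℂ)
    (χ : R₀ →+* ZMod p) :
    ∃ 𝔪' : Ideal ZC, 𝔪'.IsMaximal ∧ (p : ZC) ∈ 𝔪' ∧
      ∀ (x : R₀) (a : integralClosure ℤ K) (n : ℤ), (a : K) = κ x → χ x = n →
        ∃ b : ZC, (b : ℂ) = τ a ∧ b - (n : ZC) ∈ 𝔪' := by
  have : @FaithfulSMul ℤ (integralClosure ℤ K) Algebra.toSMul :=
    (faithfulSMul_iff_algebraMap_injective _ _).mpr (RingHom.injective_int _)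
  have : Algebra.IsIntegral ℤ (integralClosure ℤ K) :=
    ⟨fun y => (isIntegral_algHom_iff (integralClosure ℤ K).val Subtype.val_injective).mp y.2⟩
  let R₁ := integralClosure ℤ R₀
  let j : R₁ →+* integralClosure ℤ K :=
    (κ.comp R₁.val.toRingHom).codRestrict (integralClosure ℤ K) fun y =>
      (map_isIntegral_int κ y.2 :)
  have hj : Function.Injective j := fun y y' h => Subtype.ext (hκ (congrArg Subtype.val h))
  have hτ : Function.Injective τ := by
    refine (RingHom.injective_iff_ker_eq_bot τ).mpr ?_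
    refine Ideal.eq_bot_of_comap_eq_bot (R := ℤ) ?_
    rw [← RingHom.ker_comp_of_injective _ (f := RingHom.id ℂ) Function.injective_id]
    exact (RingHom.injective_iff_ker_eq_bot (τ.comp (algebraMap ℤ _))).mp (RingHom.injective_int _)
  let τ' : integralClosure ℤ K →+* ZC :=
    τ.codRestrict (integralClosure ℤ ℂ) fun y => by
      obtain ⟨P, hP, h0⟩ := Algebra.IsIntegral.isIntegral (R := ℤ) y
      refine ⟨P, hP, ?_⟩
      have h1 := congrArg τ h0
      rw [Polynomial.hom_eval₂, map_zero] at h1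
      rw [RingHom.ext_int (algebraMap ℤ ℂ) (τ.comp (algebraMap ℤ (integralClosure ℤ K)))]
      exact h1
  let : Algebra R₁ ZC := (τ'.comp j).toAlgebra
  have : FaithfulSMul R₁ ZC := (faithfulSMul_iff_algebraMap_injective _ _).mpr fun y y' h =>
    hj (hτ (congrArg Subtype.val h))
  have : Algebra.IsIntegral ℤ ZC :=
    ⟨fun y => (isIntegral_algHom_iff (integralClosure ℤ ℂ).val Subtype.val_injective).mp y.2⟩
  have : IsScalarTower ℤ R₁ ZC := IsScalarTower.of_algebraMap_eq' (RingHom.ext_int _ _)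
  have : Algebra.IsIntegral R₁ ZC := Algebra.IsIntegral.tower_top (R := ℤ)
  let kb := AlgebraicClosure (ZMod p)
  obtain ⟨Φ, hΦ⟩ := exists_ringHom_extension (T := ZC)
    (((algebraMap (ZMod p) kb).comp χ).comp R₁.val.toRingHom)
  have : CharP kb p := charP_of_injective_algebraMap (algebraMap (ZMod p) kb).injective p
  have hpker : (p : ZC) ∈ RingHom.ker Φ := by
    rw [RingHom.mem_ker, map_natCast, CharP.cast_eq_zero]
  have : (RingHom.ker Φ).IsPrime := RingHom.ker_isPrime Φ
  refine ⟨RingHom.ker Φ, Ideal.isMaximal_of_isIntegral_of_isMaximal_comap (R := ℤ) _ ?_, hpker,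
    fun x a n ha hx => ?_⟩
  · have hp' : (p : ℤ) ∈ (RingHom.ker Φ).comap (algebraMap ℤ ZC) := by
      rw [Ideal.mem_comap, map_natCast]; exact hpker
    have hspan := PrincipalIdealRing.isMaximal_of_irreducible
      (Nat.prime_iff_prime_int.mp hp.out).irreducible
    rw [← hspan.eq_of_le (Ideal.IsPrime.ne_top')
      ((Ideal.span_singleton_le_iff_mem _).mpr hp')]
    exact hspan
  · have hint : IsIntegral ℤ x := (isIntegral_algHom_iff κ.toIntAlgHom hκ).mp (ha ▸ a.2)
    refine ⟨algebraMap R₁ ZC ⟨x, hint⟩, congrArg τ (Subtype.ext ha.symm), ?_⟩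
    rw [RingHom.mem_ker, map_sub, map_intCast]
    have h1 := RingHom.congr_fun hΦ ⟨x, hint⟩
    rw [RingHom.comp_apply] at h1
    rw [h1]
    show algebraMap (ZMod p) kb (χ x) - _ = 0
    rw [hx, map_intCast, sub_self]

/-- **The eigenform.** -/
theorem exists_newAt_of_class {L : ℕ} {D : ALData} {hqL : D.q.Coprime L} {ι : Type}
    {pr : ι → HPrime L} (val : ι → ℤ) (i₀ : ι)
    (hi₀ : (((pr i₀).1.1 : ℕ) : ZMod D.N) = 1)
    (hne₀ : (val i₀ : ZMod p) ≠ ((pr i₀).1.1 : ℕ) + 1)
    (z : HighR ℤ_[p] D hqL pr)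
    (hz1 : D.corMod (1 : (ZMod 1)ˣ →* ℤ_[p]) (one_dvd D.L) hqL pr z = 0)
    (hz2 : D.cwMod (1 : (ZMod 1)ˣ →* ℤ_[p]) (one_dvd D.L) hqL pr z = 0)
    (hz : ∀ t ∉ redIdeal (PadicInt.toZMod (p := p)) (fun i => (val i : ZMod p)),
      rename some t • z ≠ 0) :
    ∃ (g : CuspForm (Gamma0 D.N) 2) (𝔪' : Ideal ZC), g.IsNormalizedEigenform ∧ 𝔪'.IsMaximal ∧
      (p : ZC) ∈ 𝔪' ∧ ModularFormClass.qCoeff g D.q ^ 2 = 1 ∧
      ∀ i, ∃ b : ZC, (b : ℂ) = ModularFormClass.qCoeff g ((pr i).1.1 : ℕ) ∧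
        b - (val i : ZC) ∈ 𝔪' := by
  classical
  have : IsAddTorsionFree ℤ_[p] := .of_isTorsionFree ℤ_[p] ℤ_[p]
  set r : ℤ_[p] →+* ZMod p := PadicInt.toZMod
  set c : ι → ZMod p := fun i => (val i : ZMod p)
  have : (redIdeal r c).IsPrime := Ideal.IsPrime.comap _
  have htf : ∀ (a : ℤ_[p]) (w : HighR ℤ_[p] D hqL pr), a ≠ 0 → a • w = 0 → w = 0 :=
      fun a w ha h => by
    refine (trivHom ℤ_[p] D.N (D.extPr hqL pr) ℤ_[p]).map_eq_zero_iff.mp
      (AddMonoidHom.ext fun γ => ?_)
    have h1 := DFunLike.congr_fun (congrArg (trivHom ℤ_[p] D.N (D.extPr hqL pr) ℤ_[p]) h) γ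
    rw [map_smul, map_zero, AddMonoidHom.smul_apply, smul_eq_mul] at h1
    exact (mul_eq_zero.mp h1).resolve_left ha
  have hU2 : (ALData.Xq ℤ_[p] ι) • (ALData.Xq ℤ_[p] ι) • z = z := by
    rw [MF.Mult.X_none_sq_of_cor_cw D hz1 hz2, thetaQ_one, one_smul]
  -- a class with `U_q = σ`
  obtain ⟨σ, hσ, w, hw, hwσ⟩ : ∃ σ : ℤ_[p], σ ^ 2 = 1 ∧ ∃ w : HighR ℤ_[p] D hqL pr,
      (∀ t ∉ redIdeal r c, rename some t • w ≠ 0) ∧ (ALData.Xq ℤ_[p] ι) • w = σ • w := by
    have h2 : ∀ w : HighR ℤ_[p] D hqL pr, w + w = 0 → w = 0 := fun w h =>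
      htf 2 w two_ne_zero (by rwa [two_smul])
    rcases smul_add_ne_or_sub_ne (rename (R := ℤ_[p]) (some : ι → Option ι)).toRingHom
      (redIdeal r c) (ALData.Xq ℤ_[p] ι) h2 hz with h | h
    · exact ⟨1, one_pow 2, _, h, by rw [smul_add, hU2, one_smul, add_comm]⟩
    · exact ⟨-1, by ring, _, h, by rw [smul_sub, hU2, neg_one_smul, neg_sub]⟩
  -- a prime above the annihilator in the good operators
  obtain ⟨Y, hY, hIY, hYm, hpY⟩ := exists_prime_above_annihilator
    (rename (R := ℤ_[p]) (some : ι → Option ι)).toRingHom (redIdeal r c) hw (C (p : ℤ_[p]))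
    fun v hv => htf _ v (Nat.cast_ne_zero.mpr hp.out.ne_zero) (by
      rwa [AlgHom.toRingHom_eq_coe, RingHom.coe_coe, rename_C, C_smul_eq] at hv)
  have := hY
  -- evaluation of the variable of `q` at `σ`
  let ev : MvPolynomial (Option ι) ℤ_[p] →ₐ[ℤ_[p]] MvPolynomial ι ℤ_[p] :=
    aeval fun o => o.elim (C σ) MvPolynomial.X
  have hev : ∀ P, rename some (ev P) • w = P • w :=
    rename_aeval_smul (by rw [C_smul_eq]; exact hwσ)
  let 𝔫 : Ideal (MvPolynomial (Option ι) ℤ_[p]) := (redIdeal r c).comap ev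
  have : 𝔫.IsPrime := Ideal.IsPrime.comap _
  -- the point
  let R₀ := MvPolynomial ι ℤ_[p] ⧸ Y
  have : IsDomain R₀ := Ideal.Quotient.isDomain Y
  let π₀ : MvPolynomial ι ℤ_[p] →+* R₀ := Ideal.Quotient.mk Y
  have hχle : Y ≤ RingHom.ker ((aeval c : MvPolynomial ι (ZMod p) →ₐ[ZMod p] ZMod p).toRingHom.comp
      (MvPolynomial.map r)) := fun t ht => hYm ht
  let χ : R₀ →+* ZMod p := Ideal.Quotient.lift Y
    ((aeval c : MvPolynomial ι (ZMod p) →ₐ[ZMod p] ZMod p).toRingHom.comp (MvPolynomial.map r))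
    fun t ht => RingHom.mem_ker.mp (hχle ht)
  have : CharZero R₀ := charZero_of_hom_zmod χ fun h => hpY (by
    rwa [← map_natCast π₀, Ideal.Quotient.eq_zero_iff_mem,
      ← map_natCast (C (R := ℤ_[p]) (σ := ι))] at h)
  obtain ⟨K, _, _, κ, hκ⟩ : ∃ (K : Type) (_ : Field K) (_ : IsAlgClosed K) (κ : R₀ →+* K),
      Function.Injective κ := by
    refine ⟨AlgebraicClosure (FractionRing R₀), inferInstance, inferInstance, algebraMap R₀ _, ?_⟩
    rw [IsScalarTower.algebraMap_eq R₀ (FractionRing R₀)]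
    exact (algebraMap (FractionRing R₀) _).injective.comp (IsFractionRing.injective _ _)
  have : CharZero K := charZero_of_injective_ringHom hκ
  let lam : MvPolynomial (Option ι) ℤ_[p] →+* K := κ.comp (π₀.comp ev.toRingHom)
  have hlam : ∀ P : MvPolynomial (Option ι) ℤ_[p],
      (∀ y : TrivLoc (M := D.N) (D.extPr hqL pr) 𝔫, P • y = 0) → lam P = 0 := fun P hP => by
    show κ (π₀ (ev P)) = 0
    rw [show π₀ (ev P) = 0 from Ideal.Quotient.eq_zero_iff_mem.mpr
      (mem_of_kills_loc ev.toRingHom _ hYm hev hIY hP), map_zero]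
  -- algebraic integers
  have : @FaithfulSMul ℤ (integralClosure ℤ K) Algebra.toSMul :=
    (faithfulSMul_iff_algebraMap_injective _ _).mpr (RingHom.injective_int _)
  have : Algebra.IsIntegral ℤ (integralClosure ℤ K) :=
    ⟨fun y => (isIntegral_algHom_iff (integralClosure ℤ K).val Subtype.val_injective).mp y.2⟩
  obtain ⟨τ, -⟩ := exists_ringHom_extension (T := integralClosure ℤ K) (Int.castRingHom ℂ)
  have hne : (MvPolynomial.X (some i₀) : MvPolynomial (Option ι) ℤ_[p]) -
      C ((((D.extPr hqL pr (some i₀)).1.1 : ℕ) : ℤ_[p]) + 1) ∉ 𝔫 := fun h => by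
    change ev _ ∈ redIdeal r c at h
    rw [mem_redIdeal] at h
    simp [ev, c, r, sub_eq_zero, ALData.extPr] at h
    exact hne₀ h
  obtain ⟨g, hg, hgv⟩ := MF.Mult.exists_eigenform_of_hom (M := D.N) (pr := D.extPr hqL pr) (𝔪 := 𝔫)
    (some i₀) hi₀ hne lam hlam τ
  have hlX : ∀ o, lam (MvPolynomial.X o) = κ (π₀ (o.elim (C σ) MvPolynomial.X)) := fun o => by
    show κ (π₀ (ev (MvPolynomial.X o))) = _
    rw [show ev (MvPolynomial.X o) = _ from aeval_X _ _]
  obtain ⟨𝔪', hmax, hpm, hplace⟩ := exists_residual_place κ hκ τ χ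
  refine ⟨g, 𝔪', hg, hmax, hpm, ?_, fun i => ?_⟩
  · obtain ⟨a, ha, hga⟩ := hgv none
    change ModularFormClass.qCoeff g D.q = τ a at hga
    rw [hga, ← map_pow, ← map_one τ]
    refine congrArg τ (Subtype.ext ?_)
    show (a : K) ^ 2 = 1
    rw [ha, hlX, ← map_pow, ← map_pow, Option.elim_none, ← map_pow, hσ, map_one, map_one, map_one]
  · obtain ⟨a, ha, hga⟩ := hgv (some i)
    change ModularFormClass.qCoeff g ((pr i).1.1 : ℕ) = τ a at hga
    rw [hga]
    refine hplace (π₀ (MvPolynomial.X i)) a (val i) (ha.trans (hlX _)) ?_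
    rw [show χ (π₀ (MvPolynomial.X i)) = _ from Ideal.Quotient.lift_mk _ _ _]
    simp [c]

end FermatAgent.LR

end
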