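import Fermat.Agent.HM.H1.DegeneracyMaps
import Fermat.Agent.HM.H1.TrivialChar

/-!
# Hecke modules with trivial character and change of coefficients

The two traces after the two degeneracy maps, and the compatibility of the degeneracy maps with a
map of coefficient rings.
-/

set_option autoImplicit false

noncomputable section

open scoped MatrixGroups
open CongruenceSubgroup MvPolynomial ModularCurve.Period

namespace FermatAgent.LR

open FermatAgent.HM

section Ops

variable {R : Type} [CommRing R] {L : ℕ} {D : ALData} {hqL : D.q.Coprime L} {ι : Type}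
  {pr : ι → HPrime L}

/-- The Hecke module of level `D.L`. -/
abbrev LowR (R : Type) [CommRing R] (D : ALData) (hqL : D.q.Coprime L) (pr : ι → HPrime L) :=
  D.LowMod (one_dvd D.L) hqL pr (1 : (ZMod 1)ˣ →* R) R

/-- The Hecke module of level `D.N`. -/
abbrev HighR (R : Type) [CommRing R] (D : ALData) (hqL : D.q.Coprime L) (pr : ι → HPrime L) :=
  D.HighMod (one_dvd D.L) hqL pr (1 : (ZMod 1)ˣ →* R) R

lemma thetaQ_one : D.thetaQ (1 : (ZMod 1)ˣ →* R) (one_dvd D.L) = 1 := by
  rw [ALData.thetaQ, MonoidHom.one_apply]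

/-- The two traces after the two degeneracy maps, on `(a, b)`. -/
lemma cor_res_add_deg (a b : LowR R D hqL pr) :
    D.corMod (1 : (ZMod 1)ˣ →* R) (one_dvd D.L) hqL pr
        (D.resMod (1 : (ZMod 1)ˣ →* R) (one_dvd D.L) hqL pr a +
          D.degMod (1 : (ZMod 1)ˣ →* R) (one_dvd D.L) hqL pr b) =
      ((D.q : R) + 1) • a + (ALData.Xq R ι) • b ∧
    D.cwMod (1 : (ZMod 1)ˣ →* R) (one_dvd D.L) hqL pr
        (D.resMod (1 : (ZMod 1)ˣ →* R) (one_dvd D.L) hqL pr a +
          D.degMod (1 : (ZMod 1)ˣ →* R) (one_dvd D.L) hqL pr b) =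
      (ALData.Xq R ι) • a + ((D.q : R) + 1) • b := by
  refine ⟨?_, ?_⟩
  · rw [map_add, D.corMod_res, show D.corMod (1 : (ZMod 1)ˣ →* R) (one_dvd D.L) hqL pr
      (D.degMod (1 : (ZMod 1)ˣ →* R) (one_dvd D.L) hqL pr b) = (ALData.Xq R ι) • b from
        D.cwMod_res b]
  · rw [map_add, D.cwMod_res]
    congr 1
    rw [ALData.cwMod, ALData.degMod, LinearMap.comp_apply, LinearMap.comp_apply, D.wMod_wMod,
      thetaQ_one, one_smul, D.corMod_res]

end Ops

section Change

variable {O k : Type} [CommRing O] [CommRing k] (r : O →+* k)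

lemma homOp_comp {S : Submonoid Mat2} {Γ Γ' : Subgroup SL(2, ℤ)} {ι : Type} [Fintype ι]
    (C : Corr S Γ' Γ ι) (φ : Additive Γ →+ O) :
    C.homOp (r.toAddMonoidHom.comp φ) = r.toAddMonoidHom.comp (C.homOp φ) := by
  refine AddMonoidHom.ext fun γ => ?_
  obtain ⟨γ, rfl⟩ := Additive.ofMul.surjective γ
  rw [AddMonoidHom.comp_apply, Corr.homOp_apply, Corr.homOp_apply, map_sum]
  rfl

variable {L M : ℕ} {κ : Type} (pr : κ → HPrime L)

/-- The change of coefficients. -/
def red : TrivH1 O M pr O →+ TrivH1 k M pr k :=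
  (trivHom k M pr k).symm.toAddMonoidHom.comp
    ((AddMonoidHom.compHom r.toAddMonoidHom).comp (trivHom O M pr O).toAddMonoidHom)

variable {pr}

lemma trivHom_red (z : TrivH1 O M pr O) :
    trivHom k M pr k (red r pr z) = r.toAddMonoidHom.comp (trivHom O M pr O z) :=
  LinearEquiv.apply_symm_apply _ _

lemma red_smul (a : O) (z : TrivH1 O M pr O) : red r pr (a • z) = r a • red r pr z := by
  refine (trivHom k M pr k).injective (AddMonoidHom.ext fun γ => ?_)
  rw [trivHom_red, map_smul, map_smul, trivHom_red]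
  simp

lemma red_X (i : κ) (z : TrivH1 O M pr O) :
    red r pr ((MvPolynomial.X i : MvPolynomial κ O) • z) =
      (MvPolynomial.X i : MvPolynomial κ k) • red r pr z := by
  have : Fact (pr i).1.1.Prime := ⟨(pr i).1.2⟩
  refine (trivHom k M pr k).injective ?_
  rw [trivHom_red, trivHom_X, trivHom_X, trivHom_red, homOp_comp]

lemma red_poly (t : MvPolynomial κ O) (z : TrivH1 O M pr O) :
    red r pr (t • z) = MvPolynomial.map r t • red r pr z := by
  induction t using MvPolynomial.induction_on generalizing z with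
  | C a => rw [map_C, C_smul_eq, C_smul_eq, red_smul]
  | add s t hs ht => rw [map_add (MvPolynomial.map r), add_smul, add_smul, map_add, hs, ht]
  | mul_X s i hs => rw [map_mul, map_X, mul_smul, mul_smul, hs, red_X]

lemma red_eq_zero_iff (z : TrivH1 O M pr O) :
    red r pr z = 0 ↔ ∀ γ, r (trivHom O M pr O z γ) = 0 := by
  rw [← (trivHom k M pr k).map_eq_zero_iff, trivHom_red]
  exact ⟨fun h γ => DFunLike.congr_fun h γ, fun h => AddMonoidHom.ext h⟩

variable {L' : ℕ} {D : ALData} {hqL : D.q.Coprime L'} {ι : Type} {pr' : ι → HPrime L'}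

lemma red_res (z : LowR O D hqL pr') :
    red r (D.extPr hqL pr') (D.resMod (1 : (ZMod 1)ˣ →* O) (one_dvd D.L) hqL pr' z) =
      D.resMod (1 : (ZMod 1)ˣ →* k) (one_dvd D.L) hqL pr' (red r (D.extPr hqL pr') z) := by
  refine (trivHom k D.N (D.extPr hqL pr') k).injective ?_
  rw [trivHom_res, trivHom_red, trivHom_red, homOp_comp]
  exact congrArg _ (trivHom_res z)

lemma red_cor (z : HighR O D hqL pr') :
    red r (D.extPr hqL pr') (D.corMod (1 : (ZMod 1)ˣ →* O) (one_dvd D.L) hqL pr' z) =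
      D.corMod (1 : (ZMod 1)ˣ →* k) (one_dvd D.L) hqL pr' (red r (D.extPr hqL pr') z) := by
  refine (trivHom k D.L (D.extPr hqL pr') k).injective ?_
  rw [trivHom_cor, trivHom_red, trivHom_red, homOp_comp]
  exact congrArg _ (trivHom_cor z)

lemma red_w (z : HighR O D hqL pr') :
    red r (D.extPr hqL pr') (D.wMod (1 : (ZMod 1)ˣ →* O) (one_dvd D.L) hqL pr' z) =
      D.wMod (1 : (ZMod 1)ˣ →* k) (one_dvd D.L) hqL pr' (red r (D.extPr hqL pr') z) := by
  refine (trivHom k D.N (D.extPr hqL pr') k).injective ?_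
  rw [trivHom_w, trivHom_red, trivHom_red, homOp_comp]
  exact congrArg _ (trivHom_w z)

lemma red_cw (z : HighR O D hqL pr') :
    red r (D.extPr hqL pr') (D.cwMod (1 : (ZMod 1)ˣ →* O) (one_dvd D.L) hqL pr' z) =
      D.cwMod (1 : (ZMod 1)ˣ →* k) (one_dvd D.L) hqL pr' (red r (D.extPr hqL pr') z) := by
  rw [ALData.cwMod, ALData.cwMod, LinearMap.comp_apply, LinearMap.comp_apply, red_cor, red_w]

lemma red_deg (z : LowR O D hqL pr') :
    red r (D.extPr hqL pr') (D.degMod (1 : (ZMod 1)ˣ →* O) (one_dvd D.L) hqL pr' z) =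
      D.degMod (1 : (ZMod 1)ˣ →* k) (one_dvd D.L) hqL pr' (red r (D.extPr hqL pr') z) := by
  rw [ALData.degMod, ALData.degMod, LinearMap.comp_apply, LinearMap.comp_apply, red_w, red_res]

end Change

end FermatAgent.LR

end
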